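import Fermat.Agent.S14.H714.Val

/-!
# S14, block LOCAL (helper714): transitivity and residual surjectivity

For an intermediate field `F` of `ℚ̄/ℚ` and valuation subrings of `ℚ̄` above a prime `ℓ`:
* `exists_smul_eq_of_inter_eq` (T1): two valuation subrings with the same trace on `F` are
  conjugate under `Gal(ℚ̄/F)`;
* `exists_residue_eq` (T2): an element of the decomposition group acting trivially on the residue
  field of `F` agrees on the residue field of `ℚ̄` with an element of `Gal(ℚ̄/F)` in the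
  decomposition group.
-/

set_option autoImplicit false
set_option linter.style.haveILetI false
set_option linter.unusedSectionVars false
set_option linter.unusedVariables false

namespace Fermat.Agent.S14.H714

open scoped Pointwise

variable (F : IntermediateField ℚ Qb)

instance instCompactSpaceFixingSubgroup : CompactSpace F.fixingSubgroup :=
  isCompact_iff_compactSpace.mp (InfiniteGalois.fixingSubgroup_isClosed F).isCompact

instance instIsInvariantFixingSubgroup :
    Algebra.IsInvariant (FixedPoints.subalgebra ℤ Zbar F.fixingSubgroup) Zbar F.fixingSubgroup :=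
  ⟨fun b hb => ⟨⟨b, hb⟩, rfl⟩⟩

/-- An algebraic integer fixed by `Gal(ℚ̄/F)` lies in `F`. -/
theorem coe_mem_of_mem_fixedPoints (r : FixedPoints.subalgebra ℤ Zbar F.fixingSubgroup) :
    ((r : Zbar) : Qb) ∈ F := by
  have h1 : ((r : Zbar) : Qb) ∈ IntermediateField.fixedField F.fixingSubgroup := by
    rw [IntermediateField.mem_fixedField_iff]
    intro σ hσ
    have := r.2 ⟨σ, hσ⟩
    exact congrArg Subtype.val this
  rwa [InfiniteGalois.fixedField_fixingSubgroup F] at h1

section

variable {F}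
variable {A A' : ValuationSubring Qb}

theorem mem_nonunits_iff_of_inter_eq (h : ∀ x ∈ F, x ∈ A ↔ x ∈ A') {x : Qb} (hx : x ∈ F) :
    x ∈ A.nonunits ↔ x ∈ A'.nonunits := by
  rw [ValuationSubring.mem_nonunits_iff_or, ValuationSubring.mem_nonunits_iff_or,
    h x⁻¹ (F.inv_mem hx)]

/-- **(T1)** Valuation subrings with the same trace on `F` are conjugate under `Gal(ℚ̄/F)`. -/
theorem exists_smul_eq_of_inter_eq {ℓ : ℕ} (hℓ : ℓ.Prime) (hA : (ℓ : Qb) ∈ A.nonunits)
    (hA' : (ℓ : Qb) ∈ A'.nonunits) (h : ∀ x ∈ F, x ∈ A ↔ x ∈ A') :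
    ∃ ρ ∈ F.fixingSubgroup, ρ • A' = A := by
  letI : TopologicalSpace Zbar := ⊥
  haveI : DiscreteTopology Zbar := ⟨rfl⟩
  haveI : ContinuousSMul F.fixingSubgroup Zbar := by
    rw [continuousSMul_iff_stabilizer_isOpen]
    intro x
    have hopen := stabilizer_isOpen_of_isIntegral (K := ℚ) (L := Qb) (x : Qb)
    have : (MulAction.stabilizer F.fixingSubgroup x : Set F.fixingSubgroup) =
        Subtype.val ⁻¹' (MulAction.stabilizer G (x : Qb) : Set G) := by
      ext g
      simp only [SetLike.mem_coe, MulAction.mem_stabilizer_iff, Set.mem_preimage, Subtype.ext_iff]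
      rfl
    rw [this]
    exact hopen.preimage continuous_subtype_val
  have hunder : (primeOf A').under (FixedPoints.subalgebra ℤ Zbar F.fixingSubgroup) =
      (primeOf A).under (FixedPoints.subalgebra ℤ Zbar F.fixingSubgroup) := by
    ext r
    rw [Ideal.mem_comap, Ideal.mem_comap]
    show (r : Zbar) ∈ primeOf A' ↔ (r : Zbar) ∈ primeOf A
    rw [mem_primeOf, mem_primeOf]
    exact (mem_nonunits_iff_of_inter_eq h (coe_mem_of_mem_fixedPoints F r)).symm
  obtain ⟨g, hg⟩ := Algebra.IsInvariant.exists_smul_of_under_eq_of_profinite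
    (A := FixedPoints.subalgebra ℤ Zbar F.fixingSubgroup) (G := F.fixingSubgroup)
    (primeOf A') (primeOf A) hunder
  refine ⟨g.1, g.2, smul_eq_of_primeOf A A' hℓ hA hA' g.1 fun s => ?_⟩
  rw [hg]
  exact (Ideal.smul_mem_pointwise_smul_iff (a := g) (S := primeOf A') (x := s)).symm

/-- Elements of the decomposition group preserve the maximal ideal. -/
theorem apply_mem_nonunits_of_smul_eq {σ : G} (hσA : σ • A = A) {x : Qb}
    (hx : x ∈ A.nonunits) : σ x ∈ A.nonunits := by
  have key : ∀ y : Qb, y ∈ A ↔ σ y ∈ A := by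
    intro y
    conv_rhs => rw [← hσA, ValuationSubring.mem_pointwise_smul_iff_inv_smul_mem]
    have : σ⁻¹ • σ y = y := by
      show σ⁻¹ (σ y) = y
      exact σ.symm_apply_apply y
    rw [this]
  rw [ValuationSubring.mem_nonunits_iff_or] at hx ⊢
  rcases hx with h | h
  · left; rw [h, map_zero]
  · right; rwa [← map_inv₀, ← key]

theorem apply_mem_of_smul_eq {σ : G} (hσA : σ • A = A) {x : Qb} (hx : x ∈ A) : σ x ∈ A := by
  rw [← hσA, ValuationSubring.mem_pointwise_smul_iff_inv_smul_mem]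
  have : σ⁻¹ • σ x = x := by
    show σ⁻¹ (σ x) = x
    exact σ.symm_apply_apply x
  rwa [this]

theorem inv_smul_eq_of_smul_eq {σ : G} (hσA : σ • A = A) : σ⁻¹ • A = A := by
  conv_lhs => rw [← hσA]
  rw [inv_smul_smul]

/-- **(T2)** An element `σ` of the decomposition group of `A` acting trivially on the residue
field of `A ∩ F` agrees modulo the maximal ideal with an element of `Gal(ℚ̄/F)` in the
decomposition group. -/
theorem exists_residue_eq {ℓ : ℕ} (hℓ : ℓ.Prime) (hA : (ℓ : Qb) ∈ A.nonunits) (σ : G)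
    (hσA : σ • A = A) (hσF : ∀ x ∈ F, x ∈ A → σ x - x ∈ A.nonunits) :
    ∃ ρ ∈ F.fixingSubgroup, ρ • A = A ∧ ∀ x ∈ A, ρ x - σ x ∈ A.nonunits := by
  letI : TopologicalSpace Zbar := ⊥
  haveI : DiscreteTopology Zbar := ⟨rfl⟩
  haveI : ContinuousSMul F.fixingSubgroup Zbar := by
    rw [continuousSMul_iff_stabilizer_isOpen]
    intro x
    have hopen := stabilizer_isOpen_of_isIntegral (K := ℚ) (L := Qb) (x : Qb)
    have : (MulAction.stabilizer F.fixingSubgroup x : Set F.fixingSubgroup) =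
        Subtype.val ⁻¹' (MulAction.stabilizer G (x : Qb) : Set G) := by
      ext g
      simp only [SetLike.mem_coe, MulAction.mem_stabilizer_iff, Set.mem_preimage, Subtype.ext_iff]
      rfl
    rw [this]
    exact hopen.preimage continuous_subtype_val
  set Q := primeOf A with hQ
  set R := FixedPoints.subalgebra ℤ Zbar F.fixingSubgroup with hR
  set P := Q.under R with hP
  haveI : Q.LiesOver P := ⟨rfl⟩
  -- `σ` stabilises `Q`
  have hσQ : σ ∈ MulAction.stabilizer G Q := by
    rw [MulAction.mem_stabilizer_iff]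
    ext s
    rw [Ideal.mem_pointwise_smul_iff_inv_smul_mem]
    have := mem_primeOf_smul_iff (inv_smul_eq_of_smul_eq hσA) s
    exact this.symm
  let l0 : (Zbar ⧸ Q) ≃ₐ[ℤ ⧸ Q.under ℤ] (Zbar ⧸ Q) :=
    Ideal.Quotient.stabilizerHom Q (Q.under ℤ) G ⟨σ, hσQ⟩
  have hl0 : ∀ b : Zbar, l0 (Ideal.Quotient.mk Q b) = Ideal.Quotient.mk Q (σ • b) := fun b => rfl
  let l : (Zbar ⧸ Q) ≃ₐ[R ⧸ P] (Zbar ⧸ Q) :=
    AlgEquiv.ofRingEquiv (f := l0.toRingEquiv) (fun r => by
      obtain ⟨r, rfl⟩ := Ideal.Quotient.mk_surjective r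
      rw [Ideal.Quotient.algebraMap_mk_of_liesOver]
      show l0 (Ideal.Quotient.mk Q (r : Zbar)) = Ideal.Quotient.mk Q (r : Zbar)
      rw [hl0, Ideal.Quotient.eq, mem_primeOf]
      exact hσF _ (coe_mem_of_mem_fixedPoints F r) (coe_mem A _))
  obtain ⟨⟨g, hgQ⟩, hgl⟩ :=
    Ideal.Quotient.stabilizerHom_surjective_of_profinite (G := F.fixingSubgroup) P Q l
  have hgb : ∀ b : Zbar, (g : G) • b - σ • b ∈ Q := by
    intro b
    have h2 := DFunLike.congr_fun hgl (Ideal.Quotient.mk Q b)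
    have h3 : l (Ideal.Quotient.mk Q b) = Ideal.Quotient.mk Q (σ • b) := rfl
    rw [h3] at h2
    rw [← Ideal.Quotient.eq]
    exact h2
  have hgQ' : ∀ s : Zbar, s ∈ Q ↔ (g : G) • s ∈ Q := by
    intro s
    rw [MulAction.mem_stabilizer_iff] at hgQ
    conv_rhs => rw [← hgQ]
    exact (Ideal.smul_mem_pointwise_smul_iff (a := g) (S := Q) (x := s)).symm
  have hgA : (g : G) • A = A := smul_eq_of_primeOf A A hℓ hA hA g.1 hgQ'
  refine ⟨g.1, g.2, hgA, fun x hx => ?_⟩
  obtain ⟨b, s, hs, hxs⟩ := exists_fraction A hℓ hA hx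
  have hgs : ((g : G) • s) ∉ Q := fun h => hs ((hgQ' s).mpr h)
  have hσs : (σ • s) ∉ Q := by
    intro h
    apply hs
    have := (mem_primeOf_smul_iff (inv_smul_eq_of_smul_eq hσA) (σ • s)).mp h
    rwa [inv_smul_smul] at this
  rw [mem_primeOf, coe_smul_Zbar] at hgs hσs
  obtain ⟨hgne, hginv⟩ := inv_mem_of_not_mem_nonunits A hgs
  obtain ⟨hσne, hσinv⟩ := inv_mem_of_not_mem_nonunits A hσs
  have e1 : (g : G) x * (g : G) (s : Qb) = (g : G) (b : Qb) := by rw [← map_mul, hxs]
  have e2 : σ x * σ (s : Qb) = σ (b : Qb) := by rw [← map_mul, hxs]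
  have hb := mem_primeOf.mp (hgb b)
  have hs' := mem_primeOf.mp (hgb s)
  have hb' : (g : G) (b : Qb) - σ (b : Qb) ∈ A.nonunits := hb
  have hs'' : (g : G) (s : Qb) - σ (s : Qb) ∈ A.nonunits := hs'
  have key : (g : G) x - σ x =
      (((g : G) (b : Qb) - σ (b : Qb)) - ((g : G) (s : Qb) - σ (s : Qb)) * σ x) *
        ((g : G) (s : Qb))⁻¹ := by
    rw [← e1, ← e2]
    field_simp
    ring
  rw [key]
  refine nonunits_mul_mem A (nonunits_sub_mem A hb' ?_) hginv
  exact nonunits_mul_mem A hs'' (apply_mem_of_smul_eq hσA hx)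

/-- Criterion for membership in the inertia subgroup. -/
theorem mem_inertiaSubgroupIn_of {σ : G} (hσA : σ • A = A)
    (h : ∀ x ∈ A, σ x - x ∈ A.nonunits) : σ ∈ A.inertiaSubgroupIn ℚ := by
  have hσD : σ ∈ A.decompositionSubgroup ℚ := MulAction.mem_stabilizer_iff.mpr hσA
  rw [ValuationSubring.inertiaSubgroupIn, Subgroup.mem_map]
  refine ⟨⟨σ, hσD⟩, ?_, rfl⟩
  rw [ValuationSubring.inertiaSubgroup, MonoidHom.mem_ker]
  ext r
  obtain ⟨a, rfl⟩ := IsLocalRing.residue_surjective r
  show (⟨σ, hσD⟩ : A.decompositionSubgroup ℚ) • (IsLocalRing.residue A a) = IsLocalRing.residue A a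
  rw [← IsLocalRing.ResidueField.residue_smul]
  show Ideal.Quotient.mk _ _ = Ideal.Quotient.mk _ _
  rw [Ideal.Quotient.eq, ← ValuationSubring.coe_mem_nonunits_iff]
  exact h a a.2

end

end Fermat.Agent.S14.H714
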