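import Fermat.Agent.S14.H714.Lin

/-!
# S14, block GALOIS (helper714): the Kummer generator in the non-split case

If some `h₀ ∈ ker ω` acts non-trivially on `V`, we construct (Lagrange resolvent)
`β ∈ ℚ̄ˣ` with `h β = ζ ^ k β` whenever `h ∈ ker ω` acts on `V` like `h₀ ^ k`.
-/

set_option autoImplicit false
set_option linter.style.haveILetI false
set_option linter.unusedSectionVars false
set_option linter.unusedVariables false

namespace Fermat.Agent.S14.H714

open ExtCitation IntermediateField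

variable {p : ℕ} [Fact p.Prime]
variable {V : Type} [AddCommGroup V] [Module (ZMod p) V]
  [DistribMulAction G V] [SMulCommClass G (ZMod p) V]
  {C : Submodule (ZMod p) V}

/-- The kernel of the action of `G` on `V`. -/
def kerAction (V : Type) [AddCommGroup V] [DistribMulAction G V] : Subgroup G where
  carrier := {σ | ∀ x : V, σ • x = x}
  mul_mem' := fun {a b} ha hb x => by rw [mul_smul, hb x, ha x]
  one_mem' := fun x => one_smul _ x
  inv_mem' := fun {a} ha x => by rw [inv_smul_eq_iff, ha x]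

theorem mem_kerAction {σ : G} : σ ∈ kerAction V ↔ ∀ x : V, σ • x = x := Iff.rfl

theorem conj_mem_kerAction {n : G} (hn : n ∈ kerAction V) (g : G) :
    g⁻¹ * n * g ∈ kerAction V := fun x => by
  rw [mul_smul, mul_smul, hn, inv_smul_smul]

theorem isClosed_kerAction (hadm : IsAdmissibleExtensionCts p V C) :
    IsClosed (kerAction V : Set G) :=
  Subgroup.isClosed_of_isOpen _ hadm.open_kernel

/-- The field cut out by `V`. -/
noncomputable def fieldM (V : Type) [AddCommGroup V] [DistribMulAction G V] : IntermediateField ℚ Qb :=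
  fixedField (kerAction V)

theorem fixingSubgroup_fieldM (hadm : IsAdmissibleExtensionCts p V C) :
    (fieldM V).fixingSubgroup = kerAction V :=
  InfiniteGalois.fixingSubgroup_fixedField ⟨kerAction V, isClosed_kerAction hadm⟩

theorem apply_eq_of_mem_fieldM {θ : Qb} (hθ : θ ∈ fieldM V) {n : G} (hn : n ∈ kerAction V) :
    n θ = θ :=
  (mem_fixedField_iff _ θ).mp hθ n hn

section nonsplit

variable (hadm : IsAdmissibleExtensionCts p V C) {h₀ : G} (hω : omega p h₀ = 1) {v : V}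
  (hv : h₀ • v ≠ v)

include hadm hω hv

theorem v_not_mem : v ∉ C := fun h => hv (hadm.fixed_sub h₀ v h)

theorem c_mem : h₀ • v - v ∈ C :=
  smul_sub_mem_of_omega_eq_one hadm.toIsAdmissibleExtension hω v

theorem c_ne_zero : h₀ • v - v ≠ 0 := sub_ne_zero.mpr hv

theorem pow_smul_v (k : ℕ) : (h₀ ^ k) • v = v + (k : ZMod p) • (h₀ • v - v) := by
  induction k with
  | zero => simp
  | succ k ih =>
    rw [pow_succ', mul_smul, ih, smul_add, smul_comm h₀,
      hadm.fixed_sub h₀ _ (c_mem hadm hω hv), Nat.cast_succ, add_smul, one_smul]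
    abel

theorem omega_pow (k : ℕ) : omega p (h₀ ^ k) = 1 := by
  induction k with
  | zero => rw [pow_zero, omega_one]
  | succ k ih => rw [pow_succ, omega_mul, ih, hω, one_mul]

theorem mem_span_c {y : V} (hy : y ∈ C) : ∃ t : ZMod p, y = t • (h₀ • v - v) := by
  have hadm' := hadm.toIsAdmissibleExtension
  haveI := finite_of_adm hadm'
  haveI : Module.Finite (ZMod p) V := Module.Finite.of_finite
  have hle : Submodule.span (ZMod p) {h₀ • v - v} ≤ C := by
    rw [Submodule.span_singleton_le_iff_mem]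
    exact c_mem hadm hω hv
  have hfr : Module.finrank (ZMod p) (Submodule.span (ZMod p) {h₀ • v - v}) =
      Module.finrank (ZMod p) C := by
    rw [finrank_C hadm', finrank_span_singleton (c_ne_zero hadm hω hv)]
  have heq := Submodule.eq_of_le_of_finrank_eq hle hfr
  rw [← heq, Submodule.mem_span_singleton] at hy
  obtain ⟨t, ht⟩ := hy
  exact ⟨t, ht.symm⟩

/-- Every element of `ker ω` acts on `V` like a power of `h₀`. -/
theorem exists_decomp {g : G} (hg : omega p g = 1) :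
    ∃ k : ℕ, g • v = v + (k : ZMod p) • (h₀ • v - v) ∧ (h₀ ^ k)⁻¹ * g ∈ kerAction V := by
  have hadm' := hadm.toIsAdmissibleExtension
  obtain ⟨t, ht⟩ := mem_span_c hadm hω hv (smul_sub_mem_of_omega_eq_one hadm' hg v)
  refine ⟨t.val, ?_, ?_⟩
  · rw [ZMod.natCast_zmod_val, ← ht]; abel
  · have h1 : omega p ((h₀ ^ t.val)⁻¹ * g) = 1 := by
      rw [omega_mul, omega_inv, omega_pow hadm hω hv, hg, inv_one, one_mul]
    refine trivial_of_fix hadm' h1 (v_not_mem hadm hω hv) ?_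
    rw [mul_smul, inv_smul_eq_iff, pow_smul_v hadm hω hv, ZMod.natCast_zmod_val, ← ht]
    abel

theorem pow_p_mem : h₀ ^ p ∈ kerAction V := by
  have hadm' := hadm.toIsAdmissibleExtension
  refine trivial_of_fix hadm' (omega_pow hadm hω hv p) (v_not_mem hadm hω hv) ?_
  rw [pow_smul_v hadm hω hv, ZMod.natCast_self, zero_smul, add_zero]

theorem pow_not_mem {k : ℕ} (hk0 : 0 < k) (hkp : k < p) : h₀ ^ k ∉ kerAction V := by
  intro h
  have h1 := h v
  rw [pow_smul_v hadm hω hv] at h1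
  have h2 : (k : ZMod p) • (h₀ • v - v) = 0 := by simpa using h1
  rcases smul_eq_zero.mp h2 with h3 | h3
  · rw [ZMod.natCast_eq_zero_iff] at h3
    exact absurd (Nat.le_of_dvd hk0 h3) (not_le.mpr hkp)
  · exact c_ne_zero hadm hω hv h3

end nonsplit

/-! ### The Lagrange resolvent -/

/-- The Lagrange resolvent `∑_{i<p} ζ⁻ⁱ h₀ⁱ(θ)`. -/
noncomputable def resolvent (p : ℕ) (ζ : Qb) (h₀ : G) (θ : Qb) : Qb :=
  ∑ i ∈ Finset.range p, (ζ⁻¹) ^ i * (h₀ ^ i) θ

theorem apply_resolvent {ζ : Qb} (hζ : ζ ^ p = 1) {h₀ : G} (hh : h₀ ζ = ζ) {θ : Qb}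
    (hθ : (h₀ ^ p) θ = θ) : h₀ (resolvent p ζ h₀ θ) = ζ * resolvent p ζ h₀ θ := by
  have hp : p.Prime := Fact.out
  have hζ0 : ζ ≠ 0 := by
    rintro rfl
    rw [zero_pow hp.ne_zero] at hζ
    exact zero_ne_one hζ
  unfold resolvent
  rw [map_sum, Finset.mul_sum]
  have h1 : ∀ i ∈ Finset.range p, h₀ ((ζ⁻¹) ^ i * (h₀ ^ i) θ) =
      ζ * ((ζ⁻¹) ^ (i + 1) * (h₀ ^ (i + 1)) θ) := by
    intro i _
    rw [map_mul, map_pow, map_inv₀, hh, pow_succ' h₀ i, AlgEquiv.mul_apply, pow_succ, ← mul_assoc,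
      ← mul_assoc, mul_comm ζ, mul_assoc _ ζ ζ⁻¹, mul_inv_cancel₀ hζ0, mul_one]
  rw [Finset.sum_congr rfl h1, ← Finset.mul_sum, ← Finset.mul_sum]
  congr 1
  have h2 := Finset.sum_range_succ' (fun i => (ζ⁻¹) ^ i * (h₀ ^ i) θ) p
  have h3 := Finset.sum_range_succ (fun i => (ζ⁻¹) ^ i * (h₀ ^ i) θ) p
  rw [h3] at h2
  simp only [pow_zero, one_mul, AlgEquiv.one_apply] at h2
  rw [inv_pow, hζ, inv_one, one_mul, hθ] at h2
  exact (add_right_cancel h2).symm

theorem apply_resolvent_of_normal {ζ : Qb} {h₀ n : G} (hn : n ζ = ζ) {θ : Qb}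
    (hθ : ∀ i : ℕ, ((h₀ ^ i)⁻¹ * n * h₀ ^ i) θ = θ) :
    n (resolvent p ζ h₀ θ) = resolvent p ζ h₀ θ := by
  unfold resolvent
  rw [map_sum]
  refine Finset.sum_congr rfl fun i _ => ?_
  rw [map_mul, map_pow, map_inv₀, hn]
  congr 1
  have := hθ i
  have e : n ((h₀ ^ i) θ) = (h₀ ^ i) (((h₀ ^ i)⁻¹ * n * h₀ ^ i) θ) := by
    simp only [AlgEquiv.mul_apply]
    rw [← AlgEquiv.mul_apply (h₀ ^ i), mul_inv_cancel, AlgEquiv.one_apply]
  rw [e, this]

theorem pow_apply_resolvent {ζ : Qb} (hζ : ζ ^ p = 1) {h₀ : G} (hh : h₀ ζ = ζ) {θ : Qb}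
    (hθ : (h₀ ^ p) θ = θ) (k : ℕ) :
    (h₀ ^ k) (resolvent p ζ h₀ θ) = ζ ^ k * resolvent p ζ h₀ θ := by
  induction k with
  | zero => simp
  | succ k ih =>
    rw [pow_succ', AlgEquiv.mul_apply, ih, map_mul, map_pow, hh, apply_resolvent hζ hh hθ]
    ring

/-- Membership in `ℚ(ζ)` is detected by Galois invariance. -/
theorem mem_adjoin_iff_fixed {ζ : Qb} (x : Qb) :
    x ∈ ℚ⟮ζ⟯ ↔ ∀ σ : G, σ ζ = ζ → σ x = x := by
  constructor
  · intro hx σ hσ
    let S : Subgroup G :=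
      { carrier := {f | f ζ = ζ}
        mul_mem' := fun {a b} (ha : a ζ = ζ) (hb : b ζ = ζ) => by
          show (a * b) ζ = ζ
          rw [AlgEquiv.mul_apply, hb, ha]
        one_mem' := rfl
        inv_mem' := fun {a} (ha : a ζ = ζ) => by
          show a⁻¹ ζ = ζ
          conv_lhs => rw [← ha]
          exact a.symm_apply_apply ζ }
    have h1 : ℚ⟮ζ⟯ ≤ fixedField S := by
      rw [adjoin_simple_le_iff, mem_fixedField_iff]
      exact fun f hf => hf
    exact (mem_fixedField_iff _ x).mp (h1 hx) σ hσ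
  · intro h
    rw [← InfiniteGalois.fixedField_fixingSubgroup (ℚ⟮ζ⟯ : IntermediateField ℚ Qb),
      mem_fixedField_iff]
    intro σ hσ
    exact h σ ((IntermediateField.mem_fixingSubgroup_iff _ σ).mp hσ ζ (mem_adjoin_simple_self ℚ ζ))

section nonsplit

variable (hadm : IsAdmissibleExtensionCts p V C) {h₀ : G} (hω : omega p h₀ = 1) {v : V}
  (hv : h₀ • v ≠ v)

include hadm hω hv

theorem exists_resolvent_ne_zero {ζ : Qb} (hζ : ζ ≠ 0) :
    ∃ θ ∈ fieldM V, resolvent p ζ h₀ θ ≠ 0 := by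
  by_contra hcon
  have hcon : ∀ θ ∈ fieldM V, resolvent p ζ h₀ θ = 0 := fun θ hθ =>
    by_contra fun h => hcon ⟨θ, hθ, h⟩
  let f : Fin p → (fieldM V →* Qb) := fun i =>
    ((((h₀ ^ (i : ℕ) : G) : Qb →ₐ[ℚ] Qb).comp (fieldM V).val : fieldM V →ₐ[ℚ] Qb) :
      fieldM V →+* Qb)
  have hf : ∀ (i : Fin p) (θ : fieldM V), f i θ = (h₀ ^ (i : ℕ)) (θ : Qb) := fun i θ => rfl
  have key : ∀ i j : ℕ, i ≤ j → j < p → (∀ θ : fieldM V, (h₀ ^ i) (θ : Qb) = (h₀ ^ j) (θ : Qb)) →
      i = j := by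
    intro i j hij hjp hθ
    by_contra hne
    have hlt : 0 < j - i := by omega
    refine pow_not_mem hadm hω hv hlt (by omega) ?_
    rw [← fixingSubgroup_fieldM hadm, IntermediateField.mem_fixingSubgroup_iff]
    intro θ hθM
    have h1 := hθ ⟨θ, hθM⟩
    have h2 : h₀ ^ j = h₀ ^ i * h₀ ^ (j - i) := by rw [← pow_add]; congr 1; omega
    rw [h2, AlgEquiv.mul_apply] at h1
    exact ((h₀ ^ i).injective h1).symm
  have hinj : Function.Injective f := by
    intro i j hij
    have hθ : ∀ θ : fieldM V, (h₀ ^ (i : ℕ)) (θ : Qb) = (h₀ ^ (j : ℕ)) (θ : Qb) := fun θ => by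
      rw [← hf i θ, ← hf j θ, hij]
    rcases le_total (i : ℕ) (j : ℕ) with h | h
    · exact Fin.ext (key i j h j.2 hθ)
    · exact Fin.ext (key j i h i.2 fun θ => (hθ θ).symm).symm
  have hli := (linearIndependent_monoidHom (fieldM V) Qb).comp f hinj
  rw [Fintype.linearIndependent_iff] at hli
  have hsum : ∑ i : Fin p, ((ζ⁻¹) ^ (i : ℕ)) • ((fun g : fieldM V →* Qb => (g : fieldM V → Qb)) ∘ f) i
      = 0 := by
    funext θ
    have := hcon θ θ.2
    unfold resolvent at this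
    rw [Finset.sum_range] at this
    simpa [hf] using this
  have hp : p.Prime := Fact.out
  have := hli (fun i => (ζ⁻¹) ^ (i : ℕ)) hsum ⟨0, hp.pos⟩
  simp at this

end nonsplit

end Fermat.Agent.S14.H714
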