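import Fermat.Agent.S14.H714.Core
import Fermat.Agent.S14.H714.Trans
import Fermat.Agent.S14.H714.Kummer

/-!
# S14, block LOCAL-I (helper714)

`K = ℚ(ζ)`, `ζ` a primitive `p`-th root of unity, `A` a valuation subring of `ℚ̄`, `b ∈ ℚ̄ˣ`
with `b ^ p ∈ K`.  If every element of the inertia group of `A` fixing `ζ` fixes `b`, then the
value of `b` is the value of a nonzero element of `K`.
-/

set_option autoImplicit false
set_option linter.style.haveILetI false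
set_option linter.unusedSectionVars false
set_option linter.unusedVariables false

namespace Fermat.Agent.S14.H714

open Polynomial IntermediateField
open scoped Pointwise

section radical

variable {K : IntermediateField ℚ Qb} {Γ₀ : Type*} [LinearOrderedCommGroupWithZero Γ₀]
  {v : Valuation Qb Γ₀}

/-- If `v y ^ p ∈ v(Kˣ)` for a prime `p` but `v y ∉ v(Kˣ)`, then `y` is a ramified generator
of degree `p`. -/
theorem isRamGen_of_pow {p : ℕ} (hp : p.Prime) {y : Qb} (hy : y ≠ 0) {c₀ : Qb} (hc₀ : c₀ ∈ K)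
    (hc₀0 : c₀ ≠ 0) (hpow : v y ^ p = v c₀) (hnot : ∀ c ∈ K, c ≠ 0 → v y ≠ v c) :
    IsRamGen K v y p := by
  intro d hd0 hdp c hc hc0 heq
  have hcop : Nat.Coprime d p :=
    (Nat.coprime_primes_aux hd0 hdp hp)
  have hbez : (d : ℤ) * Nat.gcdA d p + (p : ℤ) * Nat.gcdB d p = 1 := by
    have := Nat.gcd_eq_gcd_ab d p
    rw [hcop.gcd_eq_one] at this
    simpa using this.symm
  set s := Nat.gcdA d p
  set t := Nat.gcdB d p
  have hvy : v y ≠ 0 := (v.ne_zero_iff).mpr hy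
  refine hnot (c ^ s * c₀ ^ t) (K.mul_mem (zpow_mem hc s) (zpow_mem hc₀ t))
    (mul_ne_zero (zpow_ne_zero _ hc0) (zpow_ne_zero _ hc₀0)) ?_
  rw [map_mul, map_zpow₀, map_zpow₀, ← heq, ← hpow, ← zpow_natCast, ← zpow_natCast, ← zpow_mul,
    ← zpow_mul, ← zpow_add₀ hvy, hbez, zpow_one]
where
  Nat.coprime_primes_aux {d p : ℕ} (hd0 : 0 < d) (hdp : d < p) (hp : p.Prime) :
      Nat.Coprime d p :=
    (Nat.coprime_comm.mp ((Nat.Prime.coprime_iff_not_dvd hp).mpr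
      (fun h => absurd (Nat.le_of_dvd hd0 h) (not_le.mpr hdp))))

end radical

variable {p : ℕ} [Fact p.Prime]

/-- Roots of unity have valuation one. -/
theorem valuation_eq_one_of_pow_eq_one (A : ValuationSubring Qb) {ω : Qb} {n : ℕ} (hn : n ≠ 0)
    (hω : ω ^ n = 1) : A.valuation ω = 1 := by
  have h1 : IsIntegral ℤ ω := ⟨X ^ n - 1, monic_X_pow_sub_C 1 hn, by simp [hω]⟩
  have h2 : ω ^ (n - 1) * ω = 1 := by
    rw [← pow_succ]
    have : n - 1 + 1 = n := by omega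
    rw [this, hω]
  have h3 : ω ^ (n - 1) ∈ A := mem_of_isIntegral A (h1.pow _)
  have h4 : ω ∈ A := mem_of_isIntegral A h1
  have h5 := (A.valuation_le_one_iff _).mpr h3
  have h6 := (A.valuation_le_one_iff _).mpr h4
  have h7 : A.valuation (ω ^ (n - 1)) * A.valuation ω = 1 := by
    rw [← map_mul, h2, map_one]
  refine le_antisymm h6 ?_
  calc (1 : A.ValueGroup) = A.valuation (ω ^ (n - 1)) * A.valuation ω := h7.symm
    _ ≤ 1 * A.valuation ω := by gcongr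
    _ = A.valuation ω := one_mul _

theorem valuation_eq_one_of_mem_of_inv_mem (A : ValuationSubring Qb) {x : Qb} (hx0 : x ≠ 0)
    (hx : x ∈ A) (hx' : x⁻¹ ∈ A) : A.valuation x = 1 := by
  have h5 := (A.valuation_le_one_iff _).mpr hx
  have h6 := (A.valuation_le_one_iff _).mpr hx'
  have h7 : A.valuation x⁻¹ * A.valuation x = 1 := by
    rw [← map_mul, inv_mul_cancel₀ hx0, map_one]
  refine le_antisymm h5 ?_
  calc (1 : A.ValueGroup) = A.valuation x⁻¹ * A.valuation x := h7.symm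
    _ ≤ 1 * A.valuation x := by gcongr
    _ = A.valuation x := one_mul _

/-- A Galois automorphism fixing `ζ` multiplies a `p`-th root of an element of `ℚ(ζ)` by a
power of `ζ`. -/
theorem exists_apply_eq_pow_mul {ζ : Qb} (hζ : IsPrimitiveRoot ζ p) {b : Qb} (hb : b ≠ 0)
    (hbp : b ^ p ∈ ℚ⟮ζ⟯) {τ : G} (hτ : τ ζ = ζ) : ∃ k : ℕ, τ b = ζ ^ k * b := by
  have hp : p.Prime := Fact.out
  have h1 : τ (b ^ p) = b ^ p := (mem_adjoin_iff_fixed (b ^ p)).mp hbp τ hτ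
  have h2 : (τ b * b⁻¹) ^ p = 1 := by
    rw [mul_pow, ← map_pow, h1, inv_pow, mul_inv_cancel₀ (pow_ne_zero _ hb)]
  obtain ⟨k, -, hk⟩ := hζ.eq_pow_of_pow_eq_one h2
  refine ⟨k, ?_⟩
  rw [hk, mul_assoc, inv_mul_cancel₀ hb, mul_one]

theorem mem_adjoin_zeta_pow {ζ : Qb} (k : ℕ) : ζ ^ k ∈ ℚ⟮ζ⟯ :=
  pow_mem (mem_adjoin_simple_self ℚ ζ) k

/-- **LOCAL-I**, in the shape of `LocalIInput p ζ` of `origin/helper554`. -/
theorem local_I {ζ : Qb} (hζ : IsPrimitiveRoot ζ p) (A : ValuationSubring Qb) (b : Qb)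
    (hb : b ≠ 0) (hbp : b ^ p ∈ ℚ⟮ζ⟯)
    (hI : ∀ σ ∈ A.inertiaSubgroupIn ℚ, σ ζ = ζ → σ b = b) :
    ∃ c ∈ ℚ⟮ζ⟯, c ≠ 0 ∧ A.valuation b = A.valuation c := by
  have hp : p.Prime := Fact.out
  by_contra hcon
  have hnot : ∀ c ∈ ℚ⟮ζ⟯, c ≠ 0 → A.valuation b ≠ A.valuation c := fun c hc hc0 h =>
    hcon ⟨c, hc, hc0, h⟩
  -- the trivial valuation
  rcases eq_top_or_liesOver A with htop | ⟨ℓ, hℓ, hA⟩
  · refine hnot 1 (one_mem _) one_ne_zero ?_
    rw [map_one]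
    have h1 : b ∈ A := htop ▸ ValuationSubring.mem_top b
    have h2 : b⁻¹ ∈ A := htop ▸ ValuationSubring.mem_top b⁻¹
    exact valuation_eq_one_of_mem_of_inv_mem A hb h1 h2
  set K : IntermediateField ℚ Qb := ℚ⟮ζ⟯ with hK
  set v := A.valuation with hv
  -- ramification
  have hram : IsRamGen K v b p :=
    isRamGen_of_pow hp hb hbp (pow_ne_zero _ hb) (by rw [map_pow]) hnot
  -- a monic polynomial of degree `p` with root `b`
  let P : K[X] := X ^ p - C ⟨b ^ p, hbp⟩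
  have hPm : P.Monic := monic_X_pow_sub_C _ hp.ne_zero
  have hPdeg : P.natDegree = p := natDegree_X_pow_sub_C
  have hroot : aeval b P = 0 := by
    simp only [P, map_sub, map_pow, aeval_X, aeval_C]
    exact sub_self _
  have hram' : IsRamGen K v b P.natDegree := hPdeg ▸ hram
  -- `b ∉ K`, so some `τ` fixing `ζ` moves `b`
  have hbK : b ∉ K := fun h => hnot b h hb rfl
  obtain ⟨τ, hτζ, hτb⟩ : ∃ τ : G, τ ζ = ζ ∧ τ b ≠ b := by
    by_contra h
    apply hbK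
    rw [hK, mem_adjoin_iff_fixed]
    intro σ hσ
    by_contra hne
    exact h ⟨σ, hσ, hne⟩
  have hτK : ∀ c ∈ K, τ c = c := fun c hc => (mem_adjoin_iff_fixed c).mp hc τ hτζ
  have hτinvζ : τ⁻¹ ζ = ζ := by
    conv_lhs => rw [← hτζ]
    exact τ.symm_apply_apply ζ
  have hτinvK : ∀ c ∈ K, τ⁻¹ c = c := fun c hc => (mem_adjoin_iff_fixed c).mp hc τ⁻¹ hτinvζ
  obtain ⟨k, hk⟩ := exists_apply_eq_pow_mul hζ hb hbp hτζ
  obtain ⟨k', hk'⟩ := exists_apply_eq_pow_mul hζ hb hbp hτinvζ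
  have hvτ : v (τ⁻¹ b) = v b := by
    rw [hk', map_mul, map_pow,
      valuation_eq_one_of_pow_eq_one A hp.ne_zero hζ.pow_eq_one, one_pow, one_mul]
  set F := adjoinOver K b with hF
  have hbF : b ∈ F := mem_adjoinOver_self K b
  have hKF : K ≤ F := le_adjoinOver K b
  -- `A' := τ • A` has the same trace on `F`
  have hA'F : ∀ x ∈ F, x ∈ A ↔ x ∈ τ • A := by
    intro x hx
    rw [ValuationSubring.mem_pointwise_smul_iff_inv_smul_mem]
    have h1 : v (τ⁻¹ x) = v x := hram'.map_apply_eq hb hPm hroot hτinvK hvτ hx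
    rw [← A.valuation_le_one_iff, ← A.valuation_le_one_iff]
    show v x ≤ 1 ↔ v (τ⁻¹ x) ≤ 1
    rw [h1]
  have hA' : (ℓ : Qb) ∈ (τ • A).nonunits := by
    rw [ValuationSubring.mem_nonunits_iff_or] at hA ⊢
    rcases hA with h | h
    · exact Or.inl h
    · right
      rw [ValuationSubring.mem_pointwise_smul_iff_inv_smul_mem]
      have : τ⁻¹ • ((ℓ : Qb))⁻¹ = ((ℓ : Qb))⁻¹ := by
        show τ⁻¹ ((ℓ : Qb))⁻¹ = _
        rw [map_inv₀, map_natCast]
      rwa [this]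
  -- (T1)
  obtain ⟨ρ, hρ, hρA⟩ := exists_smul_eq_of_inter_eq hℓ hA hA' hA'F
  have hρF : ∀ x ∈ F, ρ x = x := fun x hx =>
    (IntermediateField.mem_fixingSubgroup_iff F ρ).mp hρ x hx
  set σ' : G := ρ * τ with hσ'
  have hσ'A : σ' • A = A := by rw [hσ', mul_smul, hρA]
  have hτbF : τ b ∈ F := by
    rw [hk]
    exact F.mul_mem (hKF (mem_adjoin_zeta_pow k)) hbF
  have hσ'b : σ' b = ζ ^ k * b := by
    rw [hσ', AlgEquiv.mul_apply, hρF _ hτbF, hk]
  have hσ'K : ∀ c ∈ K, σ' c = c := fun c hc => by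
    rw [hσ', AlgEquiv.mul_apply, hτK c hc, hρF c (hKF hc)]
  -- `σ'` acts trivially on the residue field of `F`
  have hσ'F : ∀ x ∈ F, x ∈ A → σ' x - x ∈ A.nonunits := by
    intro x hx hxA
    obtain ⟨a, ha, rfl, hle, hlt⟩ := hram'.exists_terms hb hPm hroot hx
      ((A.valuation_le_one_iff x).mpr hxA)
    rw [map_sum, ← Finset.sum_sub_distrib]
    rw [ValuationSubring.mem_nonunits_iff]
    refine A.valuation.map_sum_lt one_ne_zero fun i hi => ?_
    rw [Finset.mem_range] at hi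
    rw [map_mul, map_pow, hσ'K _ (ha i), hσ'b, mul_pow]
    have e : a i * ((ζ ^ k) ^ i * b ^ i) - a i * b ^ i = (a i * b ^ i) * ((ζ ^ k) ^ i - 1) := by
      ring
    rw [e, map_mul]
    have hint : IsIntegral ℤ ((ζ ^ k) ^ i - 1) := by
      have hζint : IsIntegral ℤ ζ := ⟨X ^ p - 1, monic_X_pow_sub_C 1 hp.ne_zero, by
        simp [hζ.pow_eq_one]⟩
      exact ((hζint.pow k).pow i).sub isIntegral_one
    have h1 := (A.valuation_le_one_iff _).mpr (mem_of_isIntegral A hint)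
    rcases Nat.eq_zero_or_pos i with h0 | h0
    · subst h0
      simp
    · exact mul_lt_one_of_lt_of_le (hlt i hi h0) h1
  -- (T2)
  obtain ⟨ρ', hρ', hρ'A, hρ'res⟩ := exists_residue_eq hℓ hA σ' hσ'A hσ'F
  have hρ'F : ∀ x ∈ F, ρ' x = x := fun x hx =>
    (IntermediateField.mem_fixingSubgroup_iff F ρ').mp hρ' x hx
  have hρ'invF : ∀ x ∈ F, ρ'⁻¹ x = x := fun x hx => by
    conv_lhs => rw [← hρ'F x hx]
    exact ρ'.symm_apply_apply x
  set σ : G := ρ'⁻¹ * σ' with hσ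
  have hσA : σ • A = A := by rw [hσ, mul_smul, hσ'A, inv_smul_eq_of_smul_eq hρ'A]
  have hσI : σ ∈ A.inertiaSubgroupIn ℚ := by
    refine mem_inertiaSubgroupIn_of hσA fun x hx => ?_
    have h1 := hρ'res x hx
    have h2 := apply_mem_nonunits_of_smul_eq (inv_smul_eq_of_smul_eq hρ'A) h1
    rw [map_sub] at h2
    have h3 : ρ'⁻¹ (ρ' x) = x := ρ'.symm_apply_apply x
    rw [h3] at h2
    have h4 := nonunits_neg_mem A h2
    rw [neg_sub] at h4
    exact h4
  have hσζ : σ ζ = ζ := by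
    rw [hσ, AlgEquiv.mul_apply, hσ'K ζ (mem_adjoin_simple_self ℚ ζ),
      hρ'invF ζ (hKF (mem_adjoin_simple_self ℚ ζ))]
  have hσb : σ b = ζ ^ k * b := by
    rw [hσ, AlgEquiv.mul_apply, hσ'b, ← hk, hρ'invF _ hτbF]
  have := hI σ hσI hσζ
  rw [hσb, ← hk] at this
  exact hτb this

end Fermat.Agent.S14.H714
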