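import Fermat.Agent.S14.H714.Kummer

/-!
# S14, block GALOIS (helper714): interface theorems

* `splitsGlobally_of_trivial` (in `Lin.lean`): the split case.
* `exists_kummer_generator`: in the non-split case there is `β ∈ ℚ̄ˣ` with `β ^ p ∈ ℚ(ζ)`,
  `β ∉ ℚ(ζ)`, of type `ω²`, fixed by every automorphism acting trivially on `V`.
* `splitsGlobally_or_exists_kummer`: the dichotomy, with the local conditions at all primes
  expressed on `β` only.
-/

set_option autoImplicit false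
set_option linter.style.haveILetI false
set_option linter.unusedSectionVars false
set_option linter.unusedVariables false

namespace Fermat.Agent.S14.H714

open ExtCitation IntermediateField

variable {p : ℕ} [Fact p.Prime]
variable {V : Type} [AddCommGroup V] [Module (ZMod p) V]
  [DistribMulAction G V] [SMulCommClass G (ZMod p) V]
  {C : Submodule (ZMod p) V}

/-- **Kummer generator** attached to a non-split admissible extension. -/
theorem exists_kummer_generator (hadm : IsAdmissibleExtensionCts p V C)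
    (hns : ∃ h : G, omega p h = 1 ∧ ∃ x : V, h • x ≠ x) {ζ : Qb} (hζ : IsPrimitiveRoot ζ p) :
    ∃ β : Qb, β ≠ 0 ∧ β ^ p ∈ ℚ⟮ζ⟯ ∧ β ∉ ℚ⟮ζ⟯ ∧
      (∀ σ : G, (∀ x : V, σ • x = x) → σ β = β) ∧
      (∀ σ : G, σ ζ = ζ → ∃ k : ℕ, σ β = ζ ^ k * β) ∧
      (∀ σ : G, ∃ y ∈ ℚ⟮ζ⟯, σ β = β ^ (cycloExp p σ ^ 2) * y) := by
  have hp : p.Prime := Fact.out
  have hadm' := hadm.toIsAdmissibleExtension
  obtain ⟨h₀, hω, v, hv⟩ := hns
  have hζp : ζ ^ p = 1 := hζ.pow_eq_one
  have hζ0 : ζ ≠ 0 := hζ.ne_zero hp.ne_zero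
  have hh₀ : h₀ ζ = ζ := (omega_eq_one_iff p h₀ hζ).mp hω
  obtain ⟨θ, hθM, hβ⟩ := exists_resolvent_ne_zero hadm hω hv hζ0
  set β := resolvent p ζ h₀ θ with hβdef
  have hθp : (h₀ ^ p) θ = θ := apply_eq_of_mem_fieldM hθM (pow_p_mem hadm hω hv)
  -- elements of the kernel of the action fix `β`
  have hN : ∀ n : G, n ∈ kerAction V → n β = β := by
    intro n hn
    have hnζ : n ζ = ζ := (omega_eq_one_iff p n hζ).mp (omega_eq_one_of_trivial hadm' hn)
    exact apply_resolvent_of_normal hnζ fun i =>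
      apply_eq_of_mem_fieldM hθM (conj_mem_kerAction hn _)
  -- key formula
  have key : ∀ (g : G) (k : ℕ), (h₀ ^ k)⁻¹ * g ∈ kerAction V → g β = ζ ^ k * β := by
    intro g k hk
    have e : g = h₀ ^ k * ((h₀ ^ k)⁻¹ * g) := by group
    rw [e, AlgEquiv.mul_apply, hN _ hk]
    exact pow_apply_resolvent hζp hh₀ hθp k
  have c_ne := c_ne_zero hadm hω hv
  have c_mem' := c_mem hadm hω hv
  refine ⟨β, hβ, ?_, ?_, ?_, ?_, ?_⟩
  · -- `β ^ p ∈ ℚ(ζ)`
    rw [mem_adjoin_iff_fixed]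
    intro σ hσ
    obtain ⟨k, -, hk⟩ := exists_decomp hadm hω hv ((omega_eq_one_iff p σ hζ).mpr hσ)
    rw [map_pow, key σ k hk, mul_pow, ← pow_mul, mul_comm k p, pow_mul, hζp, one_pow, one_mul]
  · -- `β ∉ ℚ(ζ)`
    intro hmem
    have h1 := (mem_adjoin_iff_fixed β).mp hmem h₀ hh₀
    have h2 : h₀ β = ζ ^ 1 * β := key h₀ 1 (by
      rw [pow_one, inv_mul_cancel]; exact (kerAction V).one_mem)
    rw [h1, pow_one] at h2
    have h3 : ζ = 1 := by
      have : (ζ - 1) * β = 0 := by rw [sub_mul, one_mul, ← h2, sub_self]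
      rcases mul_eq_zero.mp this with h | h
      · exact sub_eq_zero.mp h
      · exact absurd h hβ
    exact hζ.ne_one hp.one_lt h3
  · -- trivial action
    intro σ hσ
    exact hN σ hσ
  · -- `ker ω`
    intro σ hσ
    obtain ⟨k, -, hk⟩ := exists_decomp hadm hω hv ((omega_eq_one_iff p σ hζ).mpr hσ)
    exact ⟨k, key σ k hk⟩
  · -- type `ω²`
    intro σ
    set a := cycloExp p σ with ha
    have hβa : β ^ (a ^ 2) ≠ 0 := pow_ne_zero _ hβ
    refine ⟨σ β * (β ^ (a ^ 2))⁻¹, ?_, ?_⟩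
    · rw [mem_adjoin_iff_fixed]
      intro h hh
      have hωh : omega p h = 1 := (omega_eq_one_iff p h hζ).mpr hh
      obtain ⟨k, hkv, hk⟩ := exists_decomp hadm hω hv hωh
      have hωg : omega p (σ⁻¹ * h * σ) = 1 := by
        rw [omega_mul, omega_mul, omega_inv, hωh, mul_one,
          inv_mul_cancel₀ (omega_ne_zero p σ)]
      obtain ⟨k', hk'v, hk'⟩ := exists_decomp hadm hω hv hωg
      -- compute `(σ⁻¹ h σ) v`
      have hcomp : (σ⁻¹ * h * σ) • v = v + (omega p σ * (k : ZMod p)) • (h₀ • v - v) := by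
        obtain ⟨cσ, hcσ, hσv⟩ : ∃ c ∈ C, σ • v = omega p σ • v + c :=
          ⟨σ • v - omega p σ • v, smul_sub_omega_mem hadm' σ v, by abel⟩
        rw [mul_smul, mul_smul, inv_smul_eq_iff, smul_add, smul_comm σ,
          hadm'.fixed_sub σ _ c_mem', hσv, smul_add, smul_comm h, hkv,
          hadm'.fixed_sub h _ hcσ, smul_add, mul_smul]
        abel
      have hkk : (k' : ZMod p) = omega p σ * (k : ZMod p) := by
        rw [hk'v] at hcomp
        have h1 := add_left_cancel hcomp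
        have h2 : ((k' : ZMod p) - omega p σ * (k : ZMod p)) • (h₀ • v - v) = 0 := by
          rw [sub_smul, h1, sub_self]
        rcases smul_eq_zero.mp h2 with h3 | h3
        · exact sub_eq_zero.mp h3
        · exact absurd h3 c_ne
      have e1 : h (σ β) = σ ((σ⁻¹ * h * σ) β) := by
        simp only [AlgEquiv.mul_apply]
        rw [← AlgEquiv.mul_apply σ, mul_inv_cancel, AlgEquiv.one_apply]
      rw [map_mul, map_inv₀, map_pow, e1, key _ k' hk', key h k hk, map_mul, map_pow,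
        cycloExp_spec p σ hζp, ← ha, mul_pow, ← pow_mul, ← pow_mul]
      have e2 : ζ ^ (a * k') = ζ ^ (k * a ^ 2) := by
        apply pow_eq_pow_of_natCast_eq p hζp
        push_cast
        rw [hkk, ha, ← omega_def]
        ring
      rw [e2]
      have hz : ζ ^ (k * a ^ 2) ≠ 0 := pow_ne_zero _ hζ0
      field_simp
    · field_simp

/-- The dichotomy, with all the data needed by the arithmetic part expressed on `β` alone. -/
theorem splitsGlobally_or_exists_kummer (hp3 : 3 ≤ p) (hadm : IsAdmissibleExtensionCts p V C)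
    {ζ : Qb} (hζ : IsPrimitiveRoot ζ p) :
    SplitsGlobally C ∨
    ∃ β : Qb, β ≠ 0 ∧ β ^ p ∈ ℚ⟮ζ⟯ ∧ β ∉ ℚ⟮ζ⟯ ∧
      (∀ σ : G, σ ζ = ζ → ∃ k : ℕ, σ β = ζ ^ k * β) ∧
      (∀ σ : G, ∃ y ∈ ℚ⟮ζ⟯, σ β = β ^ (cycloExp p σ ^ 2) * y) ∧
      (∀ ℓ : ℕ, ℓ.Prime → ℓ ≠ p → ∀ A : ValuationSubring Qb, A.LiesOverPrime ℓ →
        ∀ σ ∈ A.inertiaSubgroupIn ℚ, σ β = β) ∧
      (∀ A : ValuationSubring Qb, A.LiesOverPrime p →
        ∀ σ ∈ A.decompositionSubgroup ℚ, σ ζ = ζ → σ β = β) := by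
  have hadm' := hadm.toIsAdmissibleExtension
  by_cases hns : ∃ h : G, omega p h = 1 ∧ ∃ x : V, h • x ≠ x
  · right
    obtain ⟨β, h0, h1, h2, h3, h4, h5⟩ := exists_kummer_generator hadm hns hζ
    refine ⟨β, h0, h1, h2, h4, h5, ?_, ?_⟩
    · intro ℓ hℓ hℓp A hA σ hσ
      exact h3 σ (hadm'.unramified_outside ℓ hℓ hℓp A hA σ hσ)
    · intro A hA σ hσ hσζ
      refine h3 σ fun x => ?_
      obtain ⟨C', hC', hcompl⟩ := hadm'.locally_split A hA
      have hω : omega p σ = 1 := (omega_eq_one_iff p σ hζ).mpr hσζ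
      -- decompose `x = c + c'`
      have hx : x ∈ C ⊔ C' := by rw [hcompl.sup_eq_top]; exact Submodule.mem_top
      obtain ⟨c, hc, c', hc', rfl⟩ := Submodule.mem_sup.mp hx
      have h6 : σ • c' - c' ∈ C ⊓ C' :=
        ⟨smul_sub_mem_of_omega_eq_one hadm' hω c', C'.sub_mem (hC' σ hσ c' hc') hc'⟩
      rw [hcompl.inf_eq_bot, Submodule.mem_bot, sub_eq_zero] at h6
      rw [smul_add, hadm'.fixed_sub σ c hc, h6]
  · left
    refine splitsGlobally_of_trivial hp3 hadm' fun σ hσ x => ?_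
    by_contra hx
    exact hns ⟨σ, hσ, x, hx⟩

/-- Block GALOIS in the exact shape `GaloisInput p ζ` consumed by the B1 assemblers
(cf. `origin/helper554:Fermat/Agent/S14/H554/Interface.lean`). -/
theorem galois_input (hp3 : 3 ≤ p) {ζ : Qb} (hζ : IsPrimitiveRoot ζ p)
    (V : Type) [AddCommGroup V] [Module (ZMod p) V]
    [DistribMulAction (AlgebraicClosure ℚ ≃ₐ[ℚ] AlgebraicClosure ℚ) V]
    [SMulCommClass (AlgebraicClosure ℚ ≃ₐ[ℚ] AlgebraicClosure ℚ) (ZMod p) V]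
    (C : Submodule (ZMod p) V)
    (hadm : ExtCitation.IsAdmissibleExtensionCts p V C) (hns : ¬ ExtCitation.SplitsGlobally C) :
    ∃ β : AlgebraicClosure ℚ, β ^ p ∈ ℚ⟮ζ⟯ ∧ β ∉ ℚ⟮ζ⟯ ∧
      (∀ σ : AlgebraicClosure ℚ ≃ₐ[ℚ] AlgebraicClosure ℚ, (∀ v : V, σ • v = v) → σ β = β) ∧
      (∀ σ : AlgebraicClosure ℚ ≃ₐ[ℚ] AlgebraicClosure ℚ,
        ∃ y ∈ ℚ⟮ζ⟯, σ β = β ^ (ExtCitation.cycloExp p σ ^ 2) * y) := by
  have hex : ∃ h : G, omega p h = 1 ∧ ∃ x : V, h • x ≠ x := by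
    by_contra hcon
    refine hns (splitsGlobally_of_trivial hp3 hadm.toIsAdmissibleExtension fun σ hσ x => ?_)
    by_contra hx
    exact hcon ⟨σ, hσ, x, hx⟩
  obtain ⟨β, -, h1, h2, h3, -, h5⟩ := exists_kummer_generator hadm hex hζ
  exact ⟨β, h1, h2, h3, h5⟩

end Fermat.Agent.S14.H714
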