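import Fermat.Prelude.Def_ExtCitation_AdmissibleExtension_v2
import Mathlib

/-!
# S14, block GALOIS (helper714): basic facts

* the instances needed to do (infinite) Galois theory on `AlgebraicClosure ℚ` with the
  `Algebra ℚ _` instance used by the Prelude;
* basic properties of `ExtCitation.cycloExp`.
-/

set_option autoImplicit false
set_option linter.style.haveILetI false

namespace Fermat.Agent.S14.H714

open ExtCitation

/-- The algebraic closure of `ℚ`. -/
abbrev Qb := AlgebraicClosure ℚ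
/-- The absolute Galois group of `ℚ`. -/
abbrev G := Qb ≃ₐ[ℚ] Qb

instance instIsAlgebraicQb : Algebra.IsAlgebraic ℚ Qb := AlgebraicClosure.isAlgebraic ℚ

instance instIsAlgClosureQb : IsAlgClosure ℚ Qb := ⟨inferInstance, inferInstance⟩

instance instIsGaloisQb : IsGalois ℚ Qb := inferInstance

variable (p : ℕ) [Fact p.Prime]

/-- The mod `p` cyclotomic character, as an element of `ZMod p`. -/
noncomputable def omega (σ : G) : ZMod p := (cycloExp p σ : ZMod p)

theorem omega_def (σ : G) : omega p σ = (cycloExp p σ : ZMod p) := rfl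

theorem cycloExp_spec (σ : G) {ζ : Qb} (hζ : ζ ^ p = 1) : σ ζ = ζ ^ cycloExp p σ := by
  haveI : NeZero p := ⟨(Fact.out : p.Prime).ne_zero⟩
  have hu : IsUnit ζ := IsUnit.of_pow_eq_one hζ (Fact.out : p.Prime).ne_zero
  obtain ⟨u, rfl⟩ := hu
  have hmem : u ∈ rootsOfUnity p Qb := by
    rw [mem_rootsOfUnity]
    exact Units.ext (by simpa using hζ)
  exact modularCyclotomicCharacter.spec Qb (card_rootsOfUnity_eq_self p)
    (σ : Qb ≃+* Qb) hmem

theorem omega_eq_unit (σ : G) :
    haveI : NeZero p := ⟨(Fact.out : p.Prime).ne_zero⟩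
    omega p σ = ((modularCyclotomicCharacter Qb (card_rootsOfUnity_eq_self p)
      (σ : Qb ≃+* Qb) : (ZMod p)ˣ) : ZMod p) := by
  haveI : NeZero p := ⟨(Fact.out : p.Prime).ne_zero⟩
  unfold omega cycloExp
  exact ZMod.natCast_zmod_val _

theorem omega_mul (σ τ : G) : omega p (σ * τ) = omega p σ * omega p τ := by
  haveI : NeZero p := ⟨(Fact.out : p.Prime).ne_zero⟩
  rw [omega_eq_unit, omega_eq_unit, omega_eq_unit, ← Units.val_mul, ← map_mul]
  rfl

theorem omega_one : omega p (1 : G) = 1 := by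
  haveI : NeZero p := ⟨(Fact.out : p.Prime).ne_zero⟩
  rw [omega_eq_unit]
  have : ((1 : G) : Qb ≃+* Qb) = 1 := rfl
  rw [this, map_one, Units.val_one]

theorem omega_isUnit (σ : G) : IsUnit (omega p σ) := by
  haveI : NeZero p := ⟨(Fact.out : p.Prime).ne_zero⟩
  rw [omega_eq_unit]
  exact Units.isUnit _

theorem omega_ne_zero (σ : G) : omega p σ ≠ 0 := (omega_isUnit p σ).ne_zero

theorem omega_inv (σ : G) : omega p σ⁻¹ = (omega p σ)⁻¹ := by
  have h : omega p σ⁻¹ * omega p σ = 1 := by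
    rw [← omega_mul, inv_mul_cancel, omega_one]
  exact eq_inv_of_mul_eq_one_left h

/-- Powers of a primitive `p`-th root of unity are determined by the exponent mod `p`. -/
theorem pow_eq_pow_iff_of_isPrimitiveRoot {ζ : Qb} (hζ : IsPrimitiveRoot ζ p) (a b : ℕ) :
    ζ ^ a = ζ ^ b ↔ (a : ZMod p) = (b : ZMod p) := by
  have hp : p.Prime := Fact.out
  rw [pow_eq_pow_mod a hζ.pow_eq_one, pow_eq_pow_mod b hζ.pow_eq_one,
    ZMod.natCast_eq_natCast_iff]
  constructor
  · intro h
    exact hζ.pow_inj (Nat.mod_lt _ hp.pos) (Nat.mod_lt _ hp.pos) h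
  · intro h
    rw [h]

theorem pow_eq_pow_of_natCast_eq {ζ : Qb} (hζ : ζ ^ p = 1) {a b : ℕ}
    (h : (a : ZMod p) = (b : ZMod p)) : ζ ^ a = ζ ^ b := by
  rw [pow_eq_pow_mod a hζ, pow_eq_pow_mod b hζ]
  rw [ZMod.natCast_eq_natCast_iff] at h
  rw [h]

/-- `ω σ = 1` iff `σ` fixes one (any) primitive `p`-th root of unity. -/
theorem omega_eq_one_iff (σ : G) {ζ : Qb} (hζ : IsPrimitiveRoot ζ p) :
    omega p σ = 1 ↔ σ ζ = ζ := by
  rw [cycloExp_spec p σ hζ.pow_eq_one, omega_def]
  conv_lhs => rw [← Nat.cast_one (R := ZMod p)]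
  rw [← pow_eq_pow_iff_of_isPrimitiveRoot p hζ, pow_one]

end Fermat.Agent.S14.H714
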