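import Fermat.Agent.S14.H714.Basic

/-!
# S14, block LOCAL (helper714): valuations on a "totally ramified" simple extension

Let `K ⊆ ℚ̄` be a subfield, `v` a valuation on `ℚ̄` and `y ∈ ℚ̄` a root of a monic polynomial of
degree `n` over `K` such that `v y ^ d ∉ v (Kˣ)` for `0 < d < n`.  Then the valuation of
`∑_{i<n} aᵢ yⁱ` (`aᵢ ∈ K`) is the maximum of the valuations of the terms.
-/

set_option autoImplicit false
set_option linter.style.haveILetI false
set_option linter.unusedSectionVars false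
set_option linter.unusedVariables false

namespace Fermat.Agent.S14.H714

open Polynomial IntermediateField

section general

variable {L : Type*} [Field L] {Γ₀ : Type*} [LinearOrderedCommGroupWithZero Γ₀]
  (v : Valuation L Γ₀)

/-- A finite sum whose nonzero terms have pairwise distinct valuations has the valuation of
its largest term. -/
theorem exists_max_of_pairwise_ne {ι : Type*} (s : Finset ι) (hs : s.Nonempty) (f : ι → L)
    (hf : ∀ i ∈ s, ∀ j ∈ s, i ≠ j → f i ≠ 0 → v (f i) ≠ v (f j)) :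
    ∃ j ∈ s, v (∑ i ∈ s, f i) = v (f j) ∧ ∀ i ∈ s, v (f i) ≤ v (f j) := by
  classical
  obtain ⟨j, hj, hmax⟩ := s.exists_max_image (fun i => v (f i)) hs
  refine ⟨j, hj, ?_, hmax⟩
  by_cases h0 : f j = 0
  · have hall : ∀ i ∈ s, f i = 0 := by
      intro i hi
      have := hmax i hi
      rw [h0, map_zero] at this
      exact (v.zero_iff).mp (le_antisymm this zero_le)
    rw [Finset.sum_eq_zero hall, h0]
  · refine v.map_sum_eq_of_lt hj fun i hi => ?_
    rw [Finset.mem_sdiff, Finset.mem_singleton] at hi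
    exact lt_of_le_of_ne (hmax i hi.1) (fun h => hf j hj i hi.1 (Ne.symm hi.2) h0 h.symm)

end general

variable (K : IntermediateField ℚ Qb) {Γ₀ : Type*} [LinearOrderedCommGroupWithZero Γ₀]
  (v : Valuation Qb Γ₀)

/-- The hypothesis "`y` generates a totally ramified extension of degree `n`":
no power `v y ^ d`, `0 < d < n`, is the valuation of a nonzero element of `K`. -/
def IsRamGen (y : Qb) (n : ℕ) : Prop :=
  ∀ d : ℕ, 0 < d → d < n → ∀ c ∈ K, c ≠ 0 → v y ^ d ≠ v c

variable {K v}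

theorem IsRamGen.pairwise {y : Qb} {n : ℕ} (h : IsRamGen K v y n) (hy : y ≠ 0) {a : ℕ → Qb}
    (ha : ∀ i, a i ∈ K) {w : Qb} (hw : v w = v y) :
    ∀ i ∈ Finset.range n, ∀ j ∈ Finset.range n, i ≠ j → a i * w ^ i ≠ 0 →
      v (a i * w ^ i) ≠ v (a j * w ^ j) := by
  have hvy : v y ≠ 0 := (v.ne_zero_iff).mpr hy
  -- it suffices to treat `i < j`
  have key : ∀ i j : ℕ, i < j → j < n → a i ≠ 0 → a j ≠ 0 →
      v (a i * w ^ i) ≠ v (a j * w ^ j) := by
    intro i j hij hjn hai haj heq
    rw [map_mul, map_mul, map_pow, map_pow, hw] at heq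
    have hpj : v y ^ j = v y ^ i * v y ^ (j - i) := by
      rw [← pow_add]; congr 1; omega
    rw [hpj, ← mul_assoc] at heq
    have hvaj : v (a j) ≠ 0 := (v.ne_zero_iff).mpr haj
    have hpow : v y ^ i ≠ 0 := pow_ne_zero _ hvy
    -- `v y ^ (j - i) = v (a i / a j)`
    have h1 : v y ^ (j - i) = v (a i * (a j)⁻¹) := by
      rw [map_mul, map_inv₀]
      have h2 : v (a i) * v y ^ i = v (a j) * v y ^ (j - i) * v y ^ i := by
        rw [heq, mul_assoc, mul_assoc, mul_comm (v y ^ i)]
      have h3 := mul_right_cancel₀ hpow h2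
      rw [h3, mul_comm (v (a j)), mul_assoc, mul_inv_cancel₀ hvaj, mul_one]
    exact h (j - i) (by omega) (by omega) _ (K.mul_mem (ha i) (K.inv_mem (ha j)))
      (mul_ne_zero hai (inv_ne_zero haj)) h1
  intro i hi j hj hij hne heq
  rw [Finset.mem_range] at hi hj
  have hai : a i ≠ 0 := left_ne_zero_of_mul hne
  have hvne : v (a i * w ^ i) ≠ 0 := (v.ne_zero_iff).mpr hne
  have haj : a j ≠ 0 := by
    rintro h0
    rw [h0, zero_mul, map_zero] at heq
    exact hvne heq
  rcases lt_or_gt_of_ne hij with h | h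
  · exact key i j h hj hai haj heq
  · exact key j i h hi haj hai heq.symm

/-- Valuation of `∑ aᵢ wⁱ` for `v w = v y`: it is the largest `v (aᵢ) * v y ^ i`. -/
theorem IsRamGen.exists_max {y : Qb} {n : ℕ} (h : IsRamGen K v y n) (hy : y ≠ 0) (hn : 0 < n)
    {a : ℕ → Qb} (ha : ∀ i, a i ∈ K) {w : Qb} (hw : v w = v y) :
    ∃ j < n, v (∑ i ∈ Finset.range n, a i * w ^ i) = v (a j) * v y ^ j ∧
      ∀ i < n, v (a i) * v y ^ i ≤ v (a j) * v y ^ j := by
  obtain ⟨j, hj, h1, h2⟩ := exists_max_of_pairwise_ne v (Finset.range n)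
    (Finset.nonempty_range_iff.mpr hn.ne') (fun i => a i * w ^ i) (h.pairwise hy ha hw)
  refine ⟨j, Finset.mem_range.mp hj, ?_, fun i hi => ?_⟩
  · rw [h1, map_mul, map_pow, hw]
  · have := h2 i (Finset.mem_range.mpr hi)
    simpa only [map_mul, map_pow, hw] using this

/-- Two elements of the same valuation give sums of the same valuation. -/
theorem IsRamGen.map_sum_eq {y : Qb} {n : ℕ} (h : IsRamGen K v y n) (hy : y ≠ 0) (hn : 0 < n)
    {a : ℕ → Qb} (ha : ∀ i, a i ∈ K) {w : Qb} (hw : v w = v y) :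
    v (∑ i ∈ Finset.range n, a i * w ^ i) = v (∑ i ∈ Finset.range n, a i * y ^ i) := by
  obtain ⟨j, hj, h1, h2⟩ := h.exists_max hy hn ha hw
  obtain ⟨j', hj', h1', h2'⟩ := h.exists_max hy hn ha rfl
  rw [h1, h1']
  exact le_antisymm (h2' j hj) (h2 j' hj')

/-- The elements of `k(y)` are `k`-combinations of `1, y, …, y^(n-1)`. -/
theorem exists_sum_of_mem_adjoin_gen {k : Type*} [Field k] [Algebra k Qb] {y : Qb} {P : k[X]}
    (hP : P.Monic) (hroot : aeval y P = 0) {x : Qb} (hx : x ∈ (k⟮y⟯ : IntermediateField k Qb)) :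
    ∃ a : ℕ → k, x = ∑ i ∈ Finset.range P.natDegree, algebraMap k Qb (a i) * y ^ i := by
  have hint : IsIntegral k y := ⟨P, hP, hroot⟩
  have h1 : x ∈ (k⟮y⟯ : IntermediateField k Qb).toSubalgebra := hx
  rw [IntermediateField.adjoin_simple_toSubalgebra_of_isAlgebraic hint.isAlgebraic,
    Algebra.adjoin_singleton_eq_range_aeval] at h1
  obtain ⟨f, rfl⟩ := h1
  by_cases hdeg : P.natDegree = 0
  · -- `P = 1`, impossible
    exfalso
    have hP1 : P = 1 := by
      rw [eq_C_of_natDegree_eq_zero hdeg]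
      have := hP.leadingCoeff
      rw [leadingCoeff, hdeg] at this
      rw [this, map_one]
    rw [hP1, map_one] at hroot
    exact one_ne_zero hroot
  have hmod : aeval y (f %ₘ P) = aeval y f := by
    have := modByMonic_add_div f (q := P)
    conv_rhs => rw [← this]
    rw [map_add, map_mul, hroot, zero_mul, add_zero]
  have hlt : (f %ₘ P).natDegree < P.natDegree :=
    natDegree_modByMonic_lt f hP (by rintro rfl; exact hdeg (by simp))
  refine ⟨fun i => (f %ₘ P).coeff i, ?_⟩
  show aeval y f = _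
  rw [← hmod, aeval_eq_sum_range' hlt]
  refine Finset.sum_congr rfl fun i _ => ?_
  rw [Algebra.smul_def]

/-- The elements of `K(y)` are `K`-combinations of `1, y, …, y^(n-1)`. -/
theorem exists_sum_of_mem_adjoin {y : Qb} {P : K[X]} (hP : P.Monic) (hroot : aeval y P = 0)
    {x : Qb} (hx : x ∈ (K⟮y⟯ : IntermediateField K Qb)) :
    ∃ a : ℕ → Qb, (∀ i, a i ∈ K) ∧ x = ∑ i ∈ Finset.range P.natDegree, a i * y ^ i := by
  obtain ⟨a, ha⟩ := exists_sum_of_mem_adjoin_gen hP hroot hx
  exact ⟨fun i => (a i : Qb), fun i => (a i).2, ha⟩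

/-- The field `K(y)` as an intermediate field of `ℚ̄/ℚ`. -/
noncomputable def adjoinOver (K : IntermediateField ℚ Qb) (y : Qb) : IntermediateField ℚ Qb :=
  (K⟮y⟯ : IntermediateField K Qb).restrictScalars ℚ

theorem mem_adjoinOver_self (K : IntermediateField ℚ Qb) (y : Qb) : y ∈ adjoinOver K y :=
  mem_adjoin_simple_self K y

theorem le_adjoinOver (K : IntermediateField ℚ Qb) (y : Qb) : K ≤ adjoinOver K y :=
  fun c hc => (K⟮y⟯ : IntermediateField K Qb).algebraMap_mem ⟨c, hc⟩

theorem exists_sum_of_mem_adjoinOver {y : Qb} {P : K[X]} (hP : P.Monic)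
    (hroot : aeval y P = 0) {x : Qb} (hx : x ∈ adjoinOver K y) :
    ∃ a : ℕ → Qb, (∀ i, a i ∈ K) ∧ x = ∑ i ∈ Finset.range P.natDegree, a i * y ^ i :=
  exists_sum_of_mem_adjoin hP hroot hx

/-- **Invariance.** If `τ` fixes `K` and `v (τ y) = v y`, then `v (τ x) = v x` on `K(y)`. -/
theorem IsRamGen.map_apply_eq {y : Qb} {P : K[X]} (h : IsRamGen K v y P.natDegree)
    (hy : y ≠ 0) (hP : P.Monic) (hroot : aeval y P = 0) {τ : G} (hτK : ∀ c ∈ K, τ c = c)
    (hτy : v (τ y) = v y) {x : Qb} (hx : x ∈ adjoinOver K y) : v (τ x) = v x := by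
  obtain ⟨a, ha, rfl⟩ := exists_sum_of_mem_adjoinOver hP hroot hx
  have hn : 0 < P.natDegree := by
    by_contra hdeg
    have hdeg : P.natDegree = 0 := by omega
    have hP1 : P = 1 := by
      rw [eq_C_of_natDegree_eq_zero hdeg]
      have := hP.leadingCoeff
      rw [leadingCoeff, hdeg] at this
      rw [this, map_one]
    rw [hP1, map_one] at hroot
    exact one_ne_zero hroot
  have e : τ (∑ i ∈ Finset.range P.natDegree, a i * y ^ i) =
      ∑ i ∈ Finset.range P.natDegree, a i * (τ y) ^ i := by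
    rw [map_sum]
    refine Finset.sum_congr rfl fun i _ => ?_
    rw [map_mul, map_pow, hτK _ (ha i)]
  rw [e]
  exact h.map_sum_eq hy hn ha hτy

/-- **Residue field.** Elements of `K(y) ∩ {v ≤ 1}` are congruent to elements of `K` modulo
`{v < 1}`; more precisely all terms `aᵢ yⁱ` have `v ≤ 1` and those with `i ≥ 1` have `v < 1`. -/
theorem IsRamGen.exists_terms {y : Qb} {P : K[X]} (h : IsRamGen K v y P.natDegree)
    (hy : y ≠ 0) (hP : P.Monic) (hroot : aeval y P = 0) {x : Qb} (hx : x ∈ adjoinOver K y)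
    (hx1 : v x ≤ 1) :
    ∃ a : ℕ → Qb, (∀ i, a i ∈ K) ∧ x = ∑ i ∈ Finset.range P.natDegree, a i * y ^ i ∧
      (∀ i < P.natDegree, v (a i * y ^ i) ≤ 1) ∧
      (∀ i < P.natDegree, 0 < i → v (a i * y ^ i) < 1) := by
  obtain ⟨a, ha, rfl⟩ := exists_sum_of_mem_adjoinOver hP hroot hx
  have hn : 0 < P.natDegree := by
    by_contra hdeg
    have hdeg : P.natDegree = 0 := by omega
    have hP1 : P = 1 := by
      rw [eq_C_of_natDegree_eq_zero hdeg]
      have := hP.leadingCoeff
      rw [leadingCoeff, hdeg] at this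
      rw [this, map_one]
    rw [hP1, map_one] at hroot
    exact one_ne_zero hroot
  obtain ⟨j, hj, h1, h2⟩ := h.exists_max hy hn ha rfl
  have hle : ∀ i < P.natDegree, v (a i * y ^ i) ≤ 1 := by
    intro i hi
    rw [map_mul, map_pow]
    exact (h2 i hi).trans (h1 ▸ hx1)
  refine ⟨a, ha, rfl, hle, fun i hi hi0 => ?_⟩
  refine lt_of_le_of_ne (hle i hi) fun heq => ?_
  -- `v (a i) * v y ^ i = 1` contradicts ramification
  have hai : a i ≠ 0 := by
    rintro h0
    rw [h0, zero_mul, map_zero] at heq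
    exact zero_ne_one heq
  rw [map_mul, map_pow] at heq
  have hvai : v (a i) ≠ 0 := (v.ne_zero_iff).mpr hai
  have : v y ^ i = v (a i)⁻¹ := by
    rw [map_inv₀]
    exact eq_inv_of_mul_eq_one_right heq
  exact h i hi0 hi _ (K.inv_mem (ha i)) (inv_ne_zero hai) this

end Fermat.Agent.S14.H714
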