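import Fermat.Agent.S14.H714.Basic

/-!
# S14, block LOCAL (helper714): valuation subrings of `ℚ̄` and primes of `ℤ̄`

Dictionary between a valuation subring `A` of `ℚ̄` lying over a prime `ℓ` and the prime
`primeOf A = 𝔪_A ∩ ℤ̄` of the ring `ℤ̄` of all algebraic integers: `A` is the localisation of
`ℤ̄` at `primeOf A`.
-/

set_option autoImplicit false
set_option linter.style.haveILetI false
set_option linter.unusedSectionVars false
set_option linter.unusedVariables false

namespace Fermat.Agent.S14.H714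

open Polynomial
open scoped Pointwise

/-- The ring of all algebraic integers. -/
noncomputable abbrev Zbar := integralClosure ℤ Qb

instance instIsAlgebraicIntQb : Algebra.IsAlgebraic ℤ Qb :=
  (IsFractionRing.comap_isAlgebraic_iff (A := ℤ) (K := ℚ) (C := Qb)).mpr inferInstance

theorem coe_smul_Zbar (σ : G) (x : Zbar) : ((σ • x : Zbar) : Qb) = σ (x : Qb) := rfl

/-- Algebraic integers lie in every valuation subring. -/
theorem mem_of_isIntegral (A : ValuationSubring Qb) {x : Qb} (hx : IsIntegral ℤ x) : x ∈ A := by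
  have h : IsIntegral A x := hx.tower_top
  obtain ⟨y, hy⟩ := (IsIntegrallyClosed.isIntegral_iff (R := A) (K := Qb)).mp h
  rw [← hy]
  exact y.2

theorem coe_mem (A : ValuationSubring Qb) (b : Zbar) : (b : Qb) ∈ A := mem_of_isIntegral A b.2

theorem nonunits_mul_mem (A : ValuationSubring Qb) {m x : Qb} (hm : m ∈ A.nonunits)
    (hx : x ∈ A) : m * x ∈ A.nonunits := by
  rw [ValuationSubring.mem_nonunits_iff] at hm ⊢
  rw [map_mul]
  have hx' := (A.valuation_le_one_iff x).mpr hx
  exact mul_lt_one_of_lt_of_le hm hx'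

theorem inv_mem_of_not_mem_nonunits (A : ValuationSubring Qb) {s : Qb}
    (hs : s ∉ A.nonunits) : s ≠ 0 ∧ s⁻¹ ∈ A := by
  rw [ValuationSubring.mem_nonunits_iff_or] at hs
  push Not at hs
  exact hs

theorem one_not_mem_nonunits (A : ValuationSubring Qb) : (1 : Qb) ∉ A.nonunits := by
  rw [ValuationSubring.mem_nonunits_iff, map_one]
  exact lt_irrefl _

theorem nonunits_add_mem (A : ValuationSubring Qb) {x y : Qb} (hx : x ∈ A.nonunits)
    (hy : y ∈ A.nonunits) : x + y ∈ A.nonunits := by
  rw [ValuationSubring.mem_nonunits_iff] at hx hy ⊢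
  exact A.valuation.map_add_lt hx hy

theorem nonunits_neg_mem (A : ValuationSubring Qb) {x : Qb} (hx : x ∈ A.nonunits) :
    -x ∈ A.nonunits := by
  rw [ValuationSubring.mem_nonunits_iff] at hx ⊢
  rwa [Valuation.map_neg]

theorem nonunits_sub_mem (A : ValuationSubring Qb) {x y : Qb} (hx : x ∈ A.nonunits)
    (hy : y ∈ A.nonunits) : x - y ∈ A.nonunits := by
  rw [sub_eq_add_neg]
  exact nonunits_add_mem A hx (nonunits_neg_mem A hy)

theorem mem_of_mem_nonunits (A : ValuationSubring Qb) {x : Qb} (hx : x ∈ A.nonunits) : x ∈ A := by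
  rw [ValuationSubring.mem_nonunits_iff] at hx
  exact (A.valuation_le_one_iff x).mp hx.le

/-- The inclusion of the ring of algebraic integers into a valuation subring. -/
noncomputable def inclZ (A : ValuationSubring Qb) : Zbar →+* A where
  toFun b := ⟨(b : Qb), coe_mem A b⟩
  map_one' := rfl
  map_mul' _ _ := rfl
  map_zero' := rfl
  map_add' _ _ := rfl

/-- The prime of `ℤ̄` cut out by the maximal ideal of the valuation subring `A`. -/
noncomputable def primeOf (A : ValuationSubring Qb) : Ideal Zbar :=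
  (IsLocalRing.maximalIdeal A).comap (inclZ A)

instance primeOf_isPrime (A : ValuationSubring Qb) : (primeOf A).IsPrime :=
  Ideal.comap_isPrime _ _

theorem mem_primeOf {A : ValuationSubring Qb} {b : Zbar} :
    b ∈ primeOf A ↔ (b : Qb) ∈ A.nonunits := by
  rw [primeOf, Ideal.mem_comap, ← ValuationSubring.coe_mem_nonunits_iff]
  rfl

/-- Key induction: if `x ∈ A` is a root of a polynomial over `ℤ̄` with some coefficient
outside `primeOf A`, then `x` is a fraction `b / s` with `b, s ∈ ℤ̄` and `s ∉ primeOf A`. -/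
theorem exists_fraction_aux (A : ValuationSubring Qb) {x : Qb} (hx : x ∈ A) :
    ∀ (n : ℕ) (p : Zbar[X]), p.natDegree ≤ n → aeval x p = 0 → (∃ i, p.coeff i ∉ primeOf A) →
      ∃ b s : Zbar, s ∉ primeOf A ∧ x * (s : Qb) = (b : Qb) := by
  intro n
  induction n with
  | zero =>
    intro p hp h0 ⟨i, hi⟩
    exfalso
    rw [eq_C_of_natDegree_le_zero hp, aeval_C] at h0
    have hc : p.coeff 0 = 0 := by
      have : ((p.coeff 0 : Zbar) : Qb) = 0 := h0
      exact Subtype.ext this
    apply hi
    rw [eq_C_of_natDegree_le_zero hp, coeff_C, hc]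
    split_ifs <;> exact zero_mem _
  | succ n ih =>
    intro p hp h0 ⟨i, hi⟩
    by_cases hdeg : p.natDegree ≤ n
    · exact ih p hdeg h0 ⟨i, hi⟩
    have hdeg' : p.natDegree = n + 1 := le_antisymm hp (by omega)
    have hint : IsIntegral ℤ (p.leadingCoeff • x) :=
      isIntegral_trans _ (isIntegral_leadingCoeff_smul p x h0)
    let y : Zbar := ⟨p.leadingCoeff • x, hint⟩
    have hy : (y : Qb) = (p.leadingCoeff : Qb) * x := rfl
    by_cases ha : p.leadingCoeff ∈ primeOf A
    · -- the leading coefficient is in the prime: lower the degree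
      have hyQ : y ∈ primeOf A := by
        rw [mem_primeOf, hy]
        exact nonunits_mul_mem A (mem_primeOf.mp ha) hx
      let q : Zbar[X] := p.eraseLead + C y * X ^ n
      have hqdeg : q.natDegree ≤ n := by
        refine (natDegree_add_le _ _).trans (max_le ?_ (natDegree_C_mul_X_pow_le _ _))
        have := eraseLead_natDegree_le p
        omega
      have hq0 : aeval x q = 0 := by
        have h1 : aeval x p = aeval x p.eraseLead + (p.leadingCoeff : Qb) * x ^ (n + 1) := by
          conv_lhs => rw [← eraseLead_add_C_mul_X_pow p]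
          rw [map_add, map_mul, aeval_C, map_pow, aeval_X, hdeg']
          rfl
        have h2 : aeval x q = aeval x p.eraseLead + (y : Qb) * x ^ n := by
          simp only [q]
          rw [map_add, map_mul, aeval_C, map_pow, aeval_X]
          rfl
        rw [h2, hy]
        rw [h0] at h1
        rw [h1]
        ring
      have hi' : i ≠ n + 1 := by
        rintro rfl
        apply hi
        rw [← hdeg']
        exact ha
      have hqi : q.coeff i ∉ primeOf A := by
        have hc : q.coeff i = p.coeff i + (if i = n then y else 0) := by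
          simp only [q]
          rw [coeff_add, eraseLead_coeff_of_ne i (by rw [hdeg']; exact hi'), coeff_C_mul_X_pow]
        rw [hc]
        split_ifs with hin
        · intro h
          apply hi
          have := sub_mem h hyQ
          simpa using this
        · simpa using hi
      exact ih q hqdeg hq0 ⟨i, hqi⟩
    · exact ⟨y, p.leadingCoeff, ha, by rw [hy, mul_comm]⟩

/-- An integer prime to `ℓ` is a unit in a valuation subring above `ℓ`. -/
theorem intCast_not_mem_nonunits (A : ValuationSubring Qb) {ℓ : ℕ} (hℓ : ℓ.Prime)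
    (hA : (ℓ : Qb) ∈ A.nonunits) {n : ℤ} (hn : ¬ (ℓ : ℤ) ∣ n) : (n : Qb) ∉ A.nonunits := by
  intro hmem
  have hcop : IsCoprime (ℓ : ℤ) n := (Nat.prime_iff_prime_int.mp hℓ).coprime_iff_not_dvd.mpr hn
  obtain ⟨u, v, huv⟩ := hcop
  apply one_not_mem_nonunits A
  have h1 : ((u * (ℓ : ℤ) + v * n : ℤ) : Qb) = 1 := by
    rw [huv]
    simp
  rw [← h1]
  push_cast
  refine nonunits_add_mem A ?_ ?_
  · rw [mul_comm]
    exact nonunits_mul_mem A hA (intCast_mem A u)
  · rw [mul_comm]
    exact nonunits_mul_mem A hmem (intCast_mem A v)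

/-- Every element of a valuation subring `A` of `ℚ̄` above `ℓ` is a fraction `b / s` of
algebraic integers with `s` a unit of `A`. -/
theorem exists_fraction (A : ValuationSubring Qb) {ℓ : ℕ} (hℓ : ℓ.Prime)
    (hA : (ℓ : Qb) ∈ A.nonunits) {x : Qb} (hx : x ∈ A) :
    ∃ b s : Zbar, s ∉ primeOf A ∧ x * (s : Qb) = (b : Qb) := by
  obtain ⟨p, hp0, hp⟩ := Algebra.IsAlgebraic.isAlgebraic (R := ℤ) x
  have hprim := p.isPrimitive_primPart
  have hroot : aeval x p.primPart = 0 := aeval_primPart_eq_zero hp0 hp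
  have hex : ∃ i, ¬ ((ℓ : ℤ) ∣ p.primPart.coeff i) := by
    by_contra hcon
    push Not at hcon
    have := hprim (ℓ : ℤ) ((C_dvd_iff_dvd_coeff _ _).mpr hcon)
    exact (Nat.prime_iff_prime_int.mp hℓ).not_isUnit this
  obtain ⟨i, hi⟩ := hex
  refine exists_fraction_aux A hx _ (p.primPart.map (algebraMap ℤ Zbar)) le_rfl ?_ ⟨i, ?_⟩
  · rw [aeval_map_algebraMap]
    exact hroot
  · rw [coeff_map, mem_primeOf]
    intro hmem
    have hmem' : ((p.primPart.coeff i : ℤ) : Qb) ∈ A.nonunits := by
      simpa using hmem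
    exact intCast_not_mem_nonunits A hℓ hA hi hmem'

/-- A ring automorphism mapping units (among algebraic integers) of `A` to units of `A'`
maps `A` into `A'`. -/
theorem map_mem_of_forall (A A' : ValuationSubring Qb) {ℓ : ℕ} (hℓ : ℓ.Prime)
    (hA : (ℓ : Qb) ∈ A.nonunits) (τ : G)
    (hτ : ∀ s : Zbar, s ∉ primeOf A → τ • s ∉ primeOf A') {x : Qb} (hx : x ∈ A) :
    τ x ∈ A' := by
  obtain ⟨b, s, hs, hxs⟩ := exists_fraction A hℓ hA hx
  have hτs := hτ s hs
  rw [mem_primeOf, coe_smul_Zbar] at hτs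
  obtain ⟨hne, hinv⟩ := inv_mem_of_not_mem_nonunits A' hτs
  have h1 : τ x * τ (s : Qb) = τ (b : Qb) := by rw [← map_mul, hxs]
  have h2 : τ x = τ (b : Qb) * (τ (s : Qb))⁻¹ := by
    rw [← h1, mul_assoc, mul_inv_cancel₀ hne, mul_one]
  rw [h2]
  exact A'.mul_mem _ _ (coe_mem A' (τ • b)) hinv

/-- If `τ` maps the prime of `A'` onto the prime of `A`, it maps `A'` onto `A`. -/
theorem smul_eq_of_primeOf (A A' : ValuationSubring Qb) {ℓ : ℕ} (hℓ : ℓ.Prime)
    (hA : (ℓ : Qb) ∈ A.nonunits) (hA' : (ℓ : Qb) ∈ A'.nonunits) (τ : G)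
    (hτ : ∀ s : Zbar, s ∈ primeOf A' ↔ τ • s ∈ primeOf A) : τ • A' = A := by
  apply le_antisymm
  · intro x hx
    rw [ValuationSubring.mem_pointwise_smul_iff_inv_smul_mem] at hx
    have h5 := map_mem_of_forall A' A hℓ hA' τ (fun s hs h => hs ((hτ s).mpr h)) hx
    have h6 : τ (τ⁻¹ • x) = x := by
      show τ (τ⁻¹ x) = x
      exact τ.apply_symm_apply x
    rwa [h6] at h5
  · intro x hx
    rw [ValuationSubring.mem_pointwise_smul_iff_inv_smul_mem]
    refine map_mem_of_forall A A' hℓ hA τ⁻¹ (fun s hs h => hs ?_) hx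
    have := (hτ (τ⁻¹ • s)).mp h
    rwa [smul_inv_smul] at this

/-- Conversely a `τ` mapping `A'` onto `A` maps the prime of `A'` onto the prime of `A`. -/
theorem mem_primeOf_smul_iff {A A' : ValuationSubring Qb} {τ : G} (h : τ • A' = A) (s : Zbar) :
    s ∈ primeOf A' ↔ τ • s ∈ primeOf A := by
  rw [mem_primeOf, mem_primeOf, coe_smul_Zbar]
  have key : ∀ x : Qb, x ∈ A' ↔ τ x ∈ A := by
    intro x
    rw [← h, ValuationSubring.mem_pointwise_smul_iff_inv_smul_mem]
    have : τ⁻¹ • τ x = x := by
      show τ⁻¹ (τ x) = x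
      exact τ.symm_apply_apply x
    rw [this]
  rw [ValuationSubring.mem_nonunits_iff_or, ValuationSubring.mem_nonunits_iff_or, key,
    map_inv₀]
  simp

/-- A valuation subring of `ℚ̄` is either everything, or lies over a prime number. -/
theorem eq_top_or_liesOver (A : ValuationSubring Qb) :
    A = ⊤ ∨ ∃ ℓ : ℕ, ℓ.Prime ∧ (ℓ : Qb) ∈ A.nonunits := by
  by_cases h : ∃ ℓ : ℕ, ℓ.Prime ∧ (ℓ : Qb) ∈ A.nonunits
  · exact Or.inr h
  left
  push Not at h
  -- every nonzero natural number is a unit of `A`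
  have hnat : ∀ n : ℕ, n ≠ 0 → ((n : Qb))⁻¹ ∈ A := by
    intro n
    induction n using Nat.recOnMul with
    | zero => intro h0; exact absurd rfl h0
    | one => intro _; simp
    | prime ℓ hℓ =>
      intro _
      exact (inv_mem_of_not_mem_nonunits A (h ℓ hℓ)).2
    | mul a b iha ihb =>
      intro hab
      have ha : a ≠ 0 := left_ne_zero_of_mul hab
      have hb : b ≠ 0 := right_ne_zero_of_mul hab
      rw [Nat.cast_mul, mul_inv]
      exact A.mul_mem _ _ (iha ha) (ihb hb)
  have hrat : ∀ q : ℚ, (algebraMap ℚ Qb q) ∈ A := by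
    intro q
    have hq : algebraMap ℚ Qb q = (q.num : Qb) * ((q.den : Qb))⁻¹ := by
      conv_lhs => rw [← Rat.num_div_den q]
      rw [map_div₀, div_eq_mul_inv]
      simp
    rw [hq]
    exact A.mul_mem _ _ (intCast_mem A _) (hnat q.den q.den_nz)
  rw [eq_top_iff]
  intro x _
  -- `x` is integral over `ℚ ⊆ A`
  have hint : IsIntegral ℚ x := Algebra.IsIntegral.isIntegral x
  obtain ⟨P, hP, hroot⟩ := hint
  have h : IsIntegral A x := by
    refine ⟨P.map (RingHom.codRestrict (algebraMap ℚ Qb) A.toSubring hrat), hP.map _, ?_⟩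
    rw [eval₂_map]
    have : (A.subtype : A →+* Qb).comp (RingHom.codRestrict (algebraMap ℚ Qb) A.toSubring hrat) =
        algebraMap ℚ Qb := rfl
    have h2 : (algebraMap A Qb) = (A.subtype : A →+* Qb) := rfl
    rw [h2, this]
    exact hroot
  obtain ⟨y, hy⟩ := (IsIntegrallyClosed.isIntegral_iff (R := A) (K := Qb)).mp h
  rw [← hy]
  exact y.2

end Fermat.Agent.S14.H714
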