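import Fermat.Agent.S14.H714.Core
import Fermat.Agent.S14.H714.Val

/-!
# S14, block LOCAL-D (helper714): the cyclotomic field `ℚ(ζ_p)` at a place above `p`

`A` a valuation subring of `ℚ̄` above `p`, `ζ` a primitive `p`-th root of unity, `λ = ζ - 1`:
* `v λ ^ (p-1) = v p`, `v (μ - 1) = v λ` for every primitive `p`-th root `μ`;
* the value group of `ℚ(ζ)` is generated by `v λ`;
* the residue field of `ℚ(ζ)` is `𝔽_p`.
-/

set_option autoImplicit false
set_option linter.style.haveILetI false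
set_option linter.unusedSectionVars false
set_option linter.unusedVariables false

namespace Fermat.Agent.S14.H714

open Polynomial IntermediateField

variable {p : ℕ} [Fact p.Prime] (A : ValuationSubring Qb)

theorem isIntegral_of_pow_eq_one {ω : Qb} {n : ℕ} (hn : n ≠ 0) (hω : ω ^ n = 1) :
    IsIntegral ℤ ω :=
  ⟨X ^ n - 1, monic_X_pow_sub_C 1 hn, by simp [hω]⟩

/-- `v (ω ^ i - 1) ≤ v (ω - 1)` for `ω ∈ A`. -/
theorem valuation_pow_sub_one_le {ω : Qb} (hω : ω ∈ A) (i : ℕ) :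
    A.valuation (ω ^ i - 1) ≤ A.valuation (ω - 1) := by
  rw [← geom_sum_mul, map_mul]
  have h1 : (∑ j ∈ Finset.range i, ω ^ j) ∈ A := sum_mem fun j _ => pow_mem hω j
  have h2 := (A.valuation_le_one_iff _).mpr h1
  calc A.valuation (∑ j ∈ Finset.range i, ω ^ j) * A.valuation (ω - 1)
      ≤ 1 * A.valuation (ω - 1) := by gcongr
    _ = A.valuation (ω - 1) := one_mul _

/-- All `p`-th roots of unity `μ` satisfy `v (μ - 1) ≤ v (ζ - 1)`. -/
theorem valuation_root_sub_one_le {ζ : Qb} (hζ : IsPrimitiveRoot ζ p) {μ : Qb}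
    (hμ : μ ^ p = 1) : A.valuation (μ - 1) ≤ A.valuation (ζ - 1) := by
  have hp : p.Prime := Fact.out
  obtain ⟨k, -, rfl⟩ := hζ.eq_pow_of_pow_eq_one hμ
  exact valuation_pow_sub_one_le A
    (mem_of_isIntegral A (isIntegral_of_pow_eq_one hp.ne_zero hζ.pow_eq_one)) k

/-- All primitive `p`-th roots of unity `μ` satisfy `v (μ - 1) = v (ζ - 1)`. -/
theorem valuation_primitiveRoot_sub_one {ζ μ : Qb} (hζ : IsPrimitiveRoot ζ p)
    (hμ : IsPrimitiveRoot μ p) : A.valuation (μ - 1) = A.valuation (ζ - 1) :=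
  le_antisymm (valuation_root_sub_one_le A hζ hμ.pow_eq_one)
    (valuation_root_sub_one_le A hμ hζ.pow_eq_one)

/-- `v (ζ - 1) ^ (p - 1) = v p`. -/
theorem valuation_sub_one_pow {ζ : Qb} (hζ : IsPrimitiveRoot ζ p) :
    A.valuation (ζ - 1) ^ (p - 1) = A.valuation (p : Qb) := by
  have hp : p.Prime := Fact.out
  have h1 : ((p : ℕ) : Qb) = ∏ μ ∈ primitiveRoots p Qb, (1 - μ) := by
    have := congrArg (eval 1) (cyclotomic_eq_prod_X_sub_primitiveRoots hζ)
    rw [eval_one_cyclotomic_prime, eval_prod] at this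
    simpa using this
  rw [h1, map_prod]
  have h2 : ∀ μ ∈ primitiveRoots p Qb, A.valuation (1 - μ) = A.valuation (ζ - 1) := by
    intro μ hμ
    rw [← Valuation.map_neg, neg_sub]
    exact valuation_primitiveRoot_sub_one A hζ (isPrimitiveRoot_of_mem_primitiveRoots hμ)
  rw [Finset.prod_congr rfl h2, Finset.prod_const, hζ.card_primitiveRoots,
    Nat.totient_prime hp]

variable {A}

theorem valuation_natCast_lt_one (hA : (p : Qb) ∈ A.nonunits) : A.valuation (p : Qb) < 1 := by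
  rw [ValuationSubring.mem_nonunits_iff] at hA
  exact hA

theorem valuation_natCast_ne_zero : A.valuation (p : Qb) ≠ 0 := by
  have hp : p.Prime := Fact.out
  rw [Valuation.ne_zero_iff]
  exact Nat.cast_ne_zero.mpr hp.ne_zero

theorem valuation_sub_one_lt_one (hA : (p : Qb) ∈ A.nonunits) {ζ : Qb}
    (hζ : IsPrimitiveRoot ζ p) : A.valuation (ζ - 1) < 1 := by
  have hp : p.Prime := Fact.out
  have h1 : A.valuation (ζ - 1) ≤ 1 := by
    rw [A.valuation_le_one_iff]
    exact mem_of_isIntegral A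
      ((isIntegral_of_pow_eq_one hp.ne_zero hζ.pow_eq_one).sub isIntegral_one)
  refine lt_of_le_of_ne h1 fun h => ?_
  have h2 := valuation_sub_one_pow A hζ
  rw [h, one_pow] at h2
  exact absurd h2.symm (valuation_natCast_lt_one hA).ne

theorem valuation_sub_one_ne_zero {ζ : Qb} (hζ : IsPrimitiveRoot ζ p) :
    A.valuation (ζ - 1) ≠ 0 := by
  have hp : p.Prime := Fact.out
  rw [Valuation.ne_zero_iff]
  exact sub_ne_zero.mpr (hζ.ne_one hp.one_lt)

/-- Integers prime to `p` have valuation one. -/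
theorem valuation_intCast_eq_one (hA : (p : Qb) ∈ A.nonunits) {n : ℤ} (hn : ¬ (p : ℤ) ∣ n) :
    A.valuation (n : Qb) = 1 := by
  have hp : p.Prime := Fact.out
  have h1 := intCast_not_mem_nonunits A hp hA hn
  rw [ValuationSubring.mem_nonunits_iff, not_lt] at h1
  exact le_antisymm ((A.valuation_le_one_iff _).mpr (intCast_mem A n)) h1

/-- The valuation of a nonzero integer is a power of `v p`. -/
theorem exists_valuation_natCast_eq (hA : (p : Qb) ∈ A.nonunits) {n : ℕ} (hn : n ≠ 0) :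
    ∃ e : ℕ, A.valuation (n : Qb) = A.valuation (p : Qb) ^ e := by
  have hp : p.Prime := Fact.out
  obtain ⟨e, n', hn', rfl⟩ := Nat.exists_eq_pow_mul_and_not_dvd hn p hp.ne_one
  refine ⟨e, ?_⟩
  have h1 : A.valuation ((n' : ℤ) : Qb) = 1 :=
    valuation_intCast_eq_one hA (by exact_mod_cast hn')
  rw [Nat.cast_mul, Nat.cast_pow, map_mul, map_pow]
  have h2 : ((n' : ℕ) : Qb) = ((n' : ℤ) : Qb) := by push_cast; rfl
  rw [h2, h1, mul_one]

/-- The valuation of a nonzero rational is an integral power of `v p`. -/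
theorem exists_valuation_rat_eq (hA : (p : Qb) ∈ A.nonunits) {q : ℚ} (hq : q ≠ 0) :
    ∃ e : ℤ, A.valuation (algebraMap ℚ Qb q) = A.valuation (p : Qb) ^ e := by
  have hnum : q.num.natAbs ≠ 0 := Int.natAbs_ne_zero.mpr (Rat.num_ne_zero.mpr hq)
  obtain ⟨e₁, h₁⟩ := exists_valuation_natCast_eq hA hnum
  obtain ⟨e₂, h₂⟩ := exists_valuation_natCast_eq hA q.den_nz
  refine ⟨(e₁ : ℤ) - e₂, ?_⟩
  have hq' : algebraMap ℚ Qb q = (q.num : Qb) * ((q.den : Qb))⁻¹ := by
    conv_lhs => rw [← Rat.num_div_den q]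
    rw [map_div₀, div_eq_mul_inv]
    simp
  have h3 : A.valuation ((q.num : ℤ) : Qb) = A.valuation ((q.num.natAbs : ℕ) : Qb) := by
    rcases Int.natAbs_eq q.num with h | h
    · conv_lhs => rw [h]
      simp
    · conv_lhs => rw [h]
      rw [Int.cast_neg, Valuation.map_neg]
      simp
  rw [hq', map_mul, map_inv₀, h3, h₁, h₂, zpow_sub₀ valuation_natCast_ne_zero, zpow_natCast,
    zpow_natCast, div_eq_mul_inv]

/-- `λ = ζ - 1` is a ramified generator of degree `p - 1` over `ℚ`. -/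
theorem isRamGen_sub_one (hA : (p : Qb) ∈ A.nonunits) {ζ : Qb} (hζ : IsPrimitiveRoot ζ p) :
    IsRamGen (⊥ : IntermediateField ℚ Qb) A.valuation (ζ - 1) (p - 1) := by
  have hp : p.Prime := Fact.out
  intro d hd0 hd c hc hc0 heq
  obtain ⟨q, rfl⟩ := IntermediateField.mem_bot.mp hc
  have hq : q ≠ 0 := by
    rintro rfl
    exact hc0 (map_zero _)
  obtain ⟨e, he⟩ := exists_valuation_rat_eq hA hq
  rw [he, ← valuation_sub_one_pow A hζ, ← zpow_natCast, ← zpow_natCast, ← zpow_mul] at heq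
  have hinj := zpow_right_injective₀ (zero_lt_iff.mpr (valuation_sub_one_ne_zero hζ))
    (valuation_sub_one_lt_one hA hζ).ne
  have h1 : (d : ℤ) = ((p - 1 : ℕ) : ℤ) * e := hinj heq
  -- `0 < d < p - 1` and `(p - 1) ∣ d`
  have h2 : (p - 1 : ℕ) ∣ d := by
    have : ((p - 1 : ℕ) : ℤ) ∣ (d : ℤ) := ⟨e, h1⟩
    exact_mod_cast this
  exact absurd (Nat.le_of_dvd hd0 h2) (not_le.mpr hd)

/-- A monic polynomial of degree `p - 1` over `ℚ` (viewed in `⊥`) with root `ζ - 1`. -/
noncomputable def cycloShift (p : ℕ) : (⊥ : IntermediateField ℚ Qb)[X] :=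
  (cyclotomic p (⊥ : IntermediateField ℚ Qb)).comp (X + 1)

theorem cycloShift_monic : (cycloShift p).Monic := by
  have hp : p.Prime := Fact.out
  unfold cycloShift
  refine (cyclotomic.monic p _).comp (monic_X_add_C 1) ?_
  rw [show (X + 1 : (⊥ : IntermediateField ℚ Qb)[X]) = X + C 1 by simp, natDegree_X_add_C]
  exact one_ne_zero

theorem cycloShift_natDegree : (cycloShift p).natDegree = p - 1 := by
  have hp : p.Prime := Fact.out
  unfold cycloShift
  rw [natDegree_comp, natDegree_cyclotomic, Nat.totient_prime hp,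
    show (X + 1 : (⊥ : IntermediateField ℚ Qb)[X]) = X + C 1 by simp, natDegree_X_add_C, mul_one]

theorem cycloShift_root {ζ : Qb} (hζ : IsPrimitiveRoot ζ p) : aeval (ζ - 1) (cycloShift p) = 0 := by
  have hp : p.Prime := Fact.out
  unfold cycloShift
  rw [aeval_comp]
  have : aeval (ζ - 1) (X + 1 : (⊥ : IntermediateField ℚ Qb)[X]) = ζ := by simp
  rw [this, aeval_def, eval₂_eq_eval_map, map_cyclotomic]
  exact hζ.isRoot_cyclotomic hp.pos

theorem adjoin_le_adjoinOver_bot (ζ : Qb) :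
    (ℚ⟮ζ⟯ : IntermediateField ℚ Qb) ≤ adjoinOver ⊥ (ζ - 1) := by
  rw [adjoin_simple_le_iff]
  have h1 : ζ - 1 ∈ adjoinOver ⊥ (ζ - 1) := mem_adjoinOver_self _ _
  have := (adjoinOver ⊥ (ζ - 1)).add_mem h1 (one_mem _)
  simpa using this

/-- The value group of `ℚ(ζ)` at `A` is generated by `v (ζ - 1)`. -/
theorem exists_valuation_eq_zpow (hA : (p : Qb) ∈ A.nonunits) {ζ : Qb}
    (hζ : IsPrimitiveRoot ζ p) {x : Qb} (hx : x ∈ ℚ⟮ζ⟯) (hx0 : x ≠ 0) :
    ∃ e : ℤ, A.valuation x = A.valuation (ζ - 1) ^ e := by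
  have hp : p.Prime := Fact.out
  have hl0 : ζ - 1 ≠ 0 := sub_ne_zero.mpr (hζ.ne_one hp.one_lt)
  have hram : IsRamGen (⊥ : IntermediateField ℚ Qb) A.valuation (ζ - 1)
      (cycloShift p).natDegree := by
    rw [cycloShift_natDegree]; exact isRamGen_sub_one hA hζ
  obtain ⟨a, ha, rfl⟩ := exists_sum_of_mem_adjoinOver cycloShift_monic (cycloShift_root hζ)
    (adjoin_le_adjoinOver_bot ζ hx)
  have hn : 0 < (cycloShift p).natDegree := by
    rw [cycloShift_natDegree]
    have := hp.two_le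
    by_contra h0
    have hp2 : p = 2 ∨ p - 1 = 0 := Or.inr (by omega)
    have : p - 1 = 0 := by omega
    have : p ≤ 1 := by omega
    omega
  obtain ⟨j, hj, h1, h2⟩ := hram.exists_max hl0 hn ha rfl
  have hne : A.valuation (a j) * A.valuation (ζ - 1) ^ j ≠ 0 := by
    rw [← h1]
    exact (Valuation.ne_zero_iff _).mpr hx0
  have haj : a j ≠ 0 := by
    rintro h0
    rw [h0, map_zero, zero_mul] at hne
    exact hne rfl
  obtain ⟨q, hq⟩ := IntermediateField.mem_bot.mp (ha j)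
  have hq0 : q ≠ 0 := by
    rintro rfl
    rw [map_zero] at hq
    exact haj hq.symm
  obtain ⟨e, he⟩ := exists_valuation_rat_eq hA hq0
  refine ⟨((p - 1 : ℕ) : ℤ) * e + j, ?_⟩
  rw [h1, ← hq, he, ← valuation_sub_one_pow A hζ, zpow_add₀ (valuation_sub_one_ne_zero hζ),
    zpow_mul, zpow_natCast, zpow_natCast]

/-- A rational number in `A` is congruent to an integer modulo the maximal ideal. -/
theorem exists_int_sub_mem_nonunits_rat (hA : (p : Qb) ∈ A.nonunits) {q : ℚ}
    (hq : algebraMap ℚ Qb q ∈ A) : ∃ m : ℤ, algebraMap ℚ Qb q - (m : Qb) ∈ A.nonunits := by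
  have hp : p.Prime := Fact.out
  have hq' : algebraMap ℚ Qb q = (q.num : Qb) * ((q.den : Qb))⁻¹ := by
    conv_lhs => rw [← Rat.num_div_den q]
    rw [map_div₀, div_eq_mul_inv]
    simp
  have hden0 : (q.den : Qb) ≠ 0 := Nat.cast_ne_zero.mpr q.den_nz
  -- `p ∤ den`
  have hden : ¬ (p : ℤ) ∣ (q.den : ℤ) := by
    intro hdvd
    have hnum : ¬ (p : ℤ) ∣ q.num := by
      intro hnum
      have h1 : (p : ℕ) ∣ q.num.natAbs := Int.natCast_dvd.mp hnum
      have h2 : (p : ℕ) ∣ q.den := by exact_mod_cast hdvd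
      have := Nat.dvd_gcd h1 h2
      rw [q.reduced] at this
      exact hp.one_lt.ne' (Nat.dvd_one.mp this)
    have h3 := valuation_intCast_eq_one hA hnum
    obtain ⟨t, ht⟩ := hdvd
    have h4 : A.valuation ((q.den : ℤ) : Qb) < 1 := by
      rw [ht, Int.cast_mul, map_mul]
      have := (A.valuation_le_one_iff _).mpr (intCast_mem A t)
      have hp1 : A.valuation (((p : ℕ) : ℤ) : Qb) < 1 := by
        have := valuation_natCast_lt_one hA
        simpa using this
      exact mul_lt_one_of_lt_of_le hp1 this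
    have h5 := (A.valuation_le_one_iff _).mpr hq
    rw [hq', map_mul, map_inv₀, h3, one_mul] at h5
    have h6 : A.valuation ((q.den : ℕ) : Qb) ≠ 0 := (Valuation.ne_zero_iff _).mpr hden0
    have h7 : (1 : A.ValueGroup) ≤ A.valuation ((q.den : ℕ) : Qb) := by
      have := mul_le_mul_left h5 (A.valuation ((q.den : ℕ) : Qb))
      rwa [inv_mul_cancel₀ h6, one_mul] at this
    have h8 : A.valuation ((q.den : ℕ) : Qb) < 1 := by
      have : ((q.den : ℕ) : Qb) = ((q.den : ℤ) : Qb) := by push_cast; rfl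
      rw [this]; exact h4
    exact absurd h7 (not_le.mpr h8)
  have hcop : IsCoprime (p : ℤ) (q.den : ℤ) :=
    (Nat.prime_iff_prime_int.mp hp).coprime_iff_not_dvd.mpr hden
  obtain ⟨u, w, huw⟩ := hcop
  -- `den * w ≡ 1 mod p`
  refine ⟨q.num * w, ?_⟩
  have hdenunit := valuation_intCast_eq_one hA hden
  have e : algebraMap ℚ Qb q - ((q.num * w : ℤ) : Qb) =
      ((p : Qb) * ((u : Qb) * (q.num : Qb))) * ((q.den : Qb))⁻¹ := by
    rw [hq']
    have h1 : ((u * (p : ℤ) + w * (q.den : ℤ) : ℤ) : Qb) = 1 := by rw [huw]; simp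
    push_cast at h1 ⊢
    field_simp
    linear_combination (-(q.num : Qb)) * h1
  rw [e]
  have hinv : ((q.den : Qb))⁻¹ ∈ A := by
    rw [← A.valuation_le_one_iff, map_inv₀]
    have : ((q.den : ℕ) : Qb) = ((q.den : ℤ) : Qb) := by push_cast; rfl
    rw [this, hdenunit, inv_one]
  exact nonunits_mul_mem A (nonunits_mul_mem A hA
    (A.mul_mem _ _ (intCast_mem A u) (intCast_mem A q.num))) hinv

/-- The residue field of `ℚ(ζ)` at a place above `p` is `𝔽_p`: every element of `ℚ(ζ) ∩ A` is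
congruent to a rational integer modulo the maximal ideal of `A`. -/
theorem exists_int_sub_mem_nonunits (hA : (p : Qb) ∈ A.nonunits) {ζ : Qb}
    (hζ : IsPrimitiveRoot ζ p) {x : Qb} (hx : x ∈ ℚ⟮ζ⟯) (hxA : x ∈ A) :
    ∃ m : ℤ, x - (m : Qb) ∈ A.nonunits := by
  have hp : p.Prime := Fact.out
  have hl0 : ζ - 1 ≠ 0 := sub_ne_zero.mpr (hζ.ne_one hp.one_lt)
  have hram : IsRamGen (⊥ : IntermediateField ℚ Qb) A.valuation (ζ - 1)
      (cycloShift p).natDegree := by
    rw [cycloShift_natDegree]; exact isRamGen_sub_one hA hζ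
  obtain ⟨a, ha, rfl, hle, hlt⟩ := hram.exists_terms hl0 cycloShift_monic (cycloShift_root hζ)
    (adjoin_le_adjoinOver_bot ζ hx) ((A.valuation_le_one_iff _).mpr hxA)
  have hn : 0 < (cycloShift p).natDegree := by
    rw [cycloShift_natDegree]
    have := hp.two_le
    omega
  obtain ⟨q, hq⟩ := IntermediateField.mem_bot.mp (ha 0)
  have hqA : algebraMap ℚ Qb q ∈ A := by
    rw [hq, ← A.valuation_le_one_iff]
    simpa using hle 0 hn
  obtain ⟨m, hm⟩ := exists_int_sub_mem_nonunits_rat hA hqA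
  refine ⟨m, ?_⟩
  rw [← Finset.sum_erase_add _ _ (Finset.mem_range.mpr hn), pow_zero, mul_one, add_sub_assoc,
    ← hq]
  refine nonunits_add_mem A ?_ hm
  rw [ValuationSubring.mem_nonunits_iff]
  refine A.valuation.map_sum_lt one_ne_zero fun i hi => ?_
  rw [Finset.mem_erase, Finset.mem_range] at hi
  exact hlt i hi.2 (Nat.pos_of_ne_zero hi.1)

end Fermat.Agent.S14.H714
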