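import Fermat.Agent.S14.H714.Basic

/-!
# S14, block GALOIS (helper714): linear algebra of an admissible extension

`V` is an extension of the cyclotomic character by the trivial character `C`.
* `splitsGlobally_of_trivial`: if `ker ω` acts trivially on `V`, then `C` has a Galois stable
  complement (an eigenline of any `σ₀` with `ω σ₀ ≠ 1`).
* structure of the action of `ker ω` otherwise.
-/

set_option autoImplicit false
set_option linter.style.haveILetI false
set_option linter.unusedSectionVars false
set_option linter.unusedVariables false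

namespace Fermat.Agent.S14.H714

open ExtCitation

variable {p : ℕ} [Fact p.Prime]
variable {V : Type} [AddCommGroup V] [Module (ZMod p) V]
  [DistribMulAction G V] [SMulCommClass G (ZMod p) V]
  {C : Submodule (ZMod p) V}

theorem finite_of_adm (hadm : IsAdmissibleExtension p V C) : Finite V := by
  have hp : p.Prime := Fact.out
  apply Nat.finite_of_card_ne_zero
  rw [hadm.card_total]
  exact pow_ne_zero _ hp.ne_zero

theorem finrank_V (hadm : IsAdmissibleExtension p V C) : Module.finrank (ZMod p) V = 2 := by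
  have hp : p.Prime := Fact.out
  haveI := finite_of_adm hadm
  haveI : Module.Finite (ZMod p) V := Module.Finite.of_finite
  have h := Module.natCard_eq_pow_finrank (K := ZMod p) (V := V)
  rw [hadm.card_total, Nat.card_zmod] at h
  exact (Nat.pow_right_injective hp.two_le h).symm

theorem finrank_C (hadm : IsAdmissibleExtension p V C) : Module.finrank (ZMod p) C = 1 := by
  have hp : p.Prime := Fact.out
  haveI := finite_of_adm hadm
  haveI : Module.Finite (ZMod p) C := Module.Finite.of_finite
  have h := Module.natCard_eq_pow_finrank (K := ZMod p) (V := C)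
  rw [hadm.card_sub, Nat.card_zmod] at h
  have h' : p ^ 1 = p ^ Module.finrank (ZMod p) C := by rwa [pow_one]
  exact (Nat.pow_right_injective hp.two_le h').symm

/-- A submodule strictly containing `C` is everything. -/
theorem eq_top_of_lt (hadm : IsAdmissibleExtension p V C) {W : Submodule (ZMod p) V}
    (hW : C < W) : W = ⊤ := by
  haveI := finite_of_adm hadm
  haveI : Module.Finite (ZMod p) V := Module.Finite.of_finite
  have h1 := Submodule.finrank_lt_finrank_of_lt hW
  rw [finrank_C hadm] at h1
  have h2 : Module.finrank (ZMod p) W ≤ 2 := by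
    rw [← finrank_V hadm]; exact Submodule.finrank_le W
  apply Submodule.eq_top_of_finrank_eq
  rw [finrank_V hadm]
  omega

theorem exists_not_mem (hadm : IsAdmissibleExtension p V C) : ∃ v : V, v ∉ C := by
  by_contra h
  have hC : C = ⊤ := eq_top_iff.mpr fun x _ => by_contra fun hx => h ⟨x, hx⟩
  have h1 := finrank_C hadm
  rw [hC, finrank_top, finrank_V hadm] at h1
  omega

/-- `σ x - ω(σ) x ∈ C`. -/
theorem smul_sub_omega_mem (hadm : IsAdmissibleExtension p V C) (σ : G) (x : V) :
    σ • x - omega p σ • x ∈ C := hadm.cyclo_quot σ x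

theorem smul_sub_mem_of_omega_eq_one (hadm : IsAdmissibleExtension p V C) {σ : G}
    (hσ : omega p σ = 1) (x : V) : σ • x - x ∈ C := by
  have := smul_sub_omega_mem hadm σ x
  rwa [hσ, one_smul] at this

/-- An automorphism acting trivially on `V` lies in the kernel of `ω`. -/
theorem omega_eq_one_of_trivial (hadm : IsAdmissibleExtension p V C) {σ : G}
    (hσ : ∀ x : V, σ • x = x) : omega p σ = 1 := by
  obtain ⟨v, hv⟩ := exists_not_mem hadm
  by_contra hne
  have h1 := smul_sub_omega_mem hadm σ v
  rw [hσ v] at h1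
  have h2 : (1 - omega p σ) • v ∈ C := by rwa [sub_smul, one_smul]
  have h3 : (1 - omega p σ) ≠ 0 := sub_ne_zero.mpr (Ne.symm hne)
  have h4 := C.smul_mem (1 - omega p σ)⁻¹ h2
  rw [smul_smul, inv_mul_cancel₀ h3, one_smul] at h4
  exact hv h4

/-- If `σ` with `ω σ = 1` fixes a vector outside `C`, it acts trivially. -/
theorem trivial_of_fix (hadm : IsAdmissibleExtension p V C) {σ : G} (hσ : omega p σ = 1)
    {v : V} (hv : v ∉ C) (hfix : σ • v = v) (x : V) : σ • x = x := by
  let W : Submodule (ZMod p) V :=
    { carrier := {x | σ • x = x}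
      add_mem' := fun {a b} (ha : σ • a = a) (hb : σ • b = b) => by
        show σ • (a + b) = a + b
        rw [smul_add, ha, hb]
      zero_mem' := smul_zero σ
      smul_mem' := fun k a (ha : σ • a = a) => by
        show σ • k • a = k • a
        rw [smul_comm, ha] }
  have hCW : C < W := by
    refine lt_of_le_of_ne (fun y hy => hadm.fixed_sub σ y hy) ?_
    intro h
    exact hv (h ▸ (show v ∈ W from hfix))
  have hW := eq_top_of_lt hadm hCW
  have : x ∈ W := hW ▸ Submodule.mem_top
  exact this

/-- There is an automorphism on which the cyclotomic character is nontrivial. -/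
theorem exists_omega_ne_one (hp3 : 3 ≤ p) : ∃ σ : G, omega p σ ≠ 1 := by
  have hp : p.Prime := Fact.out
  haveI : NeZero p := ⟨hp.ne_zero⟩
  haveI : NeZero (p : Qb) := ⟨Nat.cast_ne_zero.mpr hp.ne_zero⟩
  obtain ⟨ζ, hζ⟩ := HasEnoughRootsOfUnity.exists_primitiveRoot Qb p
  by_contra h
  have h : ∀ σ : G, omega p σ = 1 := fun σ => by_contra fun hx => h ⟨σ, hx⟩
  have hfix : ∀ σ : G, σ ζ = ζ := fun σ => (omega_eq_one_iff p σ hζ).mp (h σ)
  obtain ⟨q, hq⟩ := (InfiniteGalois.mem_range_algebraMap_iff_fixed (k := ℚ) (K := Qb) ζ).mpr hfix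
  have hq1 : q ^ p = 1 := by
    apply (algebraMap ℚ Qb).injective
    rw [map_pow, hq, hζ.pow_eq_one, map_one]
  have hodd : Odd p := hp.odd_of_ne_two (by omega)
  have hq2 : q = 1 := by
    have := hodd.strictMono_pow (R := ℚ)
    apply this.injective
    simp [hq1]
  rw [hq2, map_one] at hq
  exact hζ.ne_one (by omega) hq.symm

/-- **The split case.** If the kernel of the cyclotomic character acts trivially on `V`, then
`C` has a Galois stable complement. -/
theorem splitsGlobally_of_trivial (hp3 : 3 ≤ p) (hadm : IsAdmissibleExtension p V C)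
    (h : ∀ σ : G, omega p σ = 1 → ∀ x : V, σ • x = x) : SplitsGlobally C := by
  obtain ⟨σ₀, hσ₀⟩ := exists_omega_ne_one (p := p) hp3
  set a : ZMod p := omega p σ₀ with ha
  have ha1 : (1 - a) ≠ 0 := sub_ne_zero.mpr (Ne.symm hσ₀)
  let C' : Submodule (ZMod p) V :=
    { carrier := {x | σ₀ • x = a • x}
      add_mem' := fun {x y} (hx : σ₀ • x = a • x) (hy : σ₀ • y = a • y) => by
        show σ₀ • (x + y) = a • (x + y)
        rw [smul_add, hx, hy, smul_add]
      zero_mem' := by
        show σ₀ • (0 : V) = a • (0 : V)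
        rw [smul_zero, smul_zero]
      smul_mem' := fun k x (hx : σ₀ • x = a • x) => by
        show σ₀ • k • x = a • k • x
        rw [smul_comm, hx, smul_comm] }
  have hmemC' : ∀ x, x ∈ C' ↔ σ₀ • x = a • x := fun x => Iff.rfl
  refine ⟨C', ?_, ?_⟩
  · intro τ x hx
    rw [hmemC'] at hx ⊢
    -- the commutator acts trivially
    have hcomm : omega p (τ⁻¹ * σ₀⁻¹ * τ * σ₀) = 1 := by
      rw [omega_mul, omega_mul, omega_mul, omega_inv, omega_inv]
      have h1 := omega_ne_zero p τ
      have h2 := omega_ne_zero p σ₀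
      field_simp
    have h3 := h _ hcomm x
    have h4 : σ₀ • τ • x = τ • σ₀ • x := by
      have : (σ₀ * τ) • ((τ⁻¹ * σ₀⁻¹ * τ * σ₀) • x) = (σ₀ * τ) • x := by rw [h3]
      rw [← mul_smul] at this
      have e : σ₀ * τ * (τ⁻¹ * σ₀⁻¹ * τ * σ₀) = τ * σ₀ := by group
      rw [e, mul_smul, mul_smul] at this
      exact this.symm
    rw [h4, hx, smul_comm]
  · rw [isCompl_iff]
    constructor
    · rw [Submodule.disjoint_def]
      intro x hxC hxC'
      rw [hmemC'] at hxC'
      rw [hadm.fixed_sub σ₀ x hxC] at hxC'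
      have h5 : (1 - a) • x = 0 := by rw [sub_smul, one_smul, ← hxC', sub_self]
      rcases smul_eq_zero.mp h5 with h6 | h6
      · exact absurd h6 ha1
      · exact h6
    · rw [codisjoint_iff, eq_top_iff]
      intro x _
      obtain ⟨c, hc, hc'⟩ : ∃ c ∈ C, σ₀ • x = a • x + c :=
        ⟨σ₀ • x - omega p σ₀ • x, smul_sub_omega_mem hadm σ₀ x, by rw [ha]; abel⟩
      have hσc : σ₀ • c = c := hadm.fixed_sub σ₀ c hc
      have hy : x - (1 - a)⁻¹ • c ∈ C' := by
        rw [hmemC', smul_sub, smul_sub, smul_comm σ₀, hσc, hc']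
        have hcc : c = (1 - a)⁻¹ • ((1 - a) • c) := by
          rw [smul_smul, inv_mul_cancel₀ ha1, one_smul]
        rw [← sub_eq_zero]
        have e : a • x + c - (1 - a)⁻¹ • c - (a • x - a • (1 - a)⁻¹ • c) =
            (1 - (1 - a)⁻¹ + a * (1 - a)⁻¹) • c := by
          simp only [sub_smul, add_smul, one_smul, mul_smul]; abel
        rw [e]
        have : 1 - (1 - a)⁻¹ + a * (1 - a)⁻¹ = 0 := by
          field_simp; ring
        rw [this, zero_smul]
      have : x = (1 - a)⁻¹ • c + (x - (1 - a)⁻¹ • c) := by abel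
      rw [this]
      exact Submodule.add_mem_sup (C.smul_mem _ hc) hy

end Fermat.Agent.S14.H714
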