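import Fermat.Agent.S14.H714.LocalI
import Fermat.Agent.S14.H714.Cyclo

/-!
# S14, block LOCAL-D (helper714)

`K = ℚ(ζ)`, `ζ` a primitive `p`-th root of unity (`p ≥ 3`), `A` a valuation subring of `ℚ̄`
above `p`, `b` an `A`-unit with `b ^ p ∈ K`.  If every element of the decomposition group of `A`
fixing `ζ` fixes `b`, then `b ^ p` is congruent to a rational integer modulo `(ζ - 1) ^ p`, in
particular modulo `(ζ - 1) ^ 3`.
-/

set_option autoImplicit false
set_option linter.style.haveILetI false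
set_option linter.unusedSectionVars false
set_option linter.unusedVariables false

namespace Fermat.Agent.S14.H714

open Polynomial IntermediateField
open scoped Pointwise

variable {p : ℕ} [Fact p.Prime]

/-- Each factor of `x ^ p - m ^ p = ∏ (x - μ m)` differs from `x - m` by a multiple of
`ζ - 1`. -/
theorem valuation_factor_sub_le (A : ValuationSubring Qb) {ζ : Qb} (hζ : IsPrimitiveRoot ζ p)
    {m μ : Qb} (hm : m ∈ A) (hμ : μ ^ p = 1) :
    A.valuation ((1 - μ) * m) ≤ A.valuation (ζ - 1) := by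
  rw [map_mul, ← Valuation.map_neg, neg_sub]
  have h1 := valuation_root_sub_one_le A hζ hμ
  have h2 := (A.valuation_le_one_iff _).mpr hm
  calc A.valuation (μ - 1) * A.valuation m ≤ A.valuation (ζ - 1) * 1 := by gcongr
    _ = A.valuation (ζ - 1) := mul_one _

theorem valuation_pow_sub_pow_eq (A : ValuationSubring Qb) {ζ : Qb} (hζ : IsPrimitiveRoot ζ p)
    {x m : Qb} (hm : m ∈ A) (h : A.valuation (ζ - 1) < A.valuation (x - m)) :
    A.valuation (x ^ p - m ^ p) = A.valuation (x - m) ^ p := by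
  have hp : p.Prime := Fact.out
  rw [hζ.pow_sub_pow_eq_prod_sub_mul x m hp.pos, map_prod]
  have h2 : ∀ μ ∈ nthRootsFinset p (1 : Qb), A.valuation (x - μ * m) = A.valuation (x - m) := by
    intro μ hμ
    have hμ1 : μ ^ p = 1 := ((mem_nthRootsFinset hp.pos 1).mp hμ)
    have e : x - μ * m = (x - m) + (1 - μ) * m := by ring
    rw [e]
    exact Valuation.map_add_eq_of_lt_left _
      (lt_of_le_of_lt (valuation_factor_sub_le A hζ hm hμ1) h)
  rw [Finset.prod_congr rfl h2, Finset.prod_const, hζ.card_nthRootsFinset]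

theorem valuation_pow_sub_pow_le (A : ValuationSubring Qb) {ζ : Qb} (hζ : IsPrimitiveRoot ζ p)
    {x m : Qb} (hm : m ∈ A) (h : A.valuation (x - m) ≤ A.valuation (ζ - 1)) :
    A.valuation (x ^ p - m ^ p) ≤ A.valuation (ζ - 1) ^ p := by
  have hp : p.Prime := Fact.out
  rw [hζ.pow_sub_pow_eq_prod_sub_mul x m hp.pos, map_prod]
  have h2 : ∀ μ ∈ nthRootsFinset p (1 : Qb),
      A.valuation (x - μ * m) ≤ A.valuation (ζ - 1) := by
    intro μ hμ
    have hμ1 : μ ^ p = 1 := ((mem_nthRootsFinset hp.pos 1).mp hμ)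
    have e : x - μ * m = (x - m) + (1 - μ) * m := by ring
    rw [e]
    exact (Valuation.map_add _ _ _).trans (max_le h (valuation_factor_sub_le A hζ hm hμ1))
  calc ∏ μ ∈ nthRootsFinset p (1 : Qb), A.valuation (x - μ * m)
      ≤ ∏ _μ ∈ nthRootsFinset p (1 : Qb), A.valuation (ζ - 1) :=
        Finset.prod_le_prod (fun _ _ => zero_le) h2
    _ = A.valuation (ζ - 1) ^ p := by rw [Finset.prod_const, hζ.card_nthRootsFinset]

/-- **LOCAL-D**, in the shape of `LocalDInput p ζ` of `origin/helper554`. -/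
theorem local_D (hp3 : 3 ≤ p) {ζ : Qb} (hζ : IsPrimitiveRoot ζ p) (A : ValuationSubring Qb)
    (hA : A.LiesOverPrime p) (b : Qb) (hbp : b ^ p ∈ ℚ⟮ζ⟯) (hb1 : A.valuation b = 1)
    (hD : ∀ σ ∈ A.decompositionSubgroup ℚ, σ ζ = ζ → σ b = b) :
    ∃ m : ℤ, A.valuation (b ^ p - (m : Qb)) ≤ A.valuation ((ζ - 1) ^ 3) := by
  have hp : p.Prime := Fact.out
  have hA' : (p : Qb) ∈ A.nonunits := hA
  set K : IntermediateField ℚ Qb := ℚ⟮ζ⟯ with hK
  set v := A.valuation with hv
  have hb0 : b ≠ 0 := by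
    rintro rfl
    rw [map_zero] at hb1
    exact zero_ne_one hb1
  have hbA : b ∈ A := (A.valuation_le_one_iff b).mp hb1.le
  have hlam1 : v (ζ - 1) < 1 := valuation_sub_one_lt_one hA' hζ
  have hlam0 : v (ζ - 1) ≠ 0 := valuation_sub_one_ne_zero hζ
  obtain ⟨m₀, hm₀⟩ := exists_int_sub_mem_nonunits hA' hζ hbp (pow_mem hbA p)
  have hmA : (m₀ : Qb) ∈ A := intCast_mem A m₀
  -- Fermat's little theorem
  have hferm : (m₀ : Qb) ^ p - m₀ ∈ A.nonunits := by
    have h1 : (p : ℤ) ∣ m₀ ^ p - m₀ := by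
      rw [← ZMod.intCast_zmod_eq_zero_iff_dvd]
      push_cast
      rw [ZMod.pow_card, sub_self]
    obtain ⟨t, ht⟩ := h1
    have h2 : (m₀ : Qb) ^ p - m₀ = (p : Qb) * (t : Qb) := by
      have := congrArg (Int.cast (R := Qb)) ht
      push_cast at this
      exact this
    rw [h2]
    exact nonunits_mul_mem A hA' (intCast_mem A t)
  have h1 : v (b ^ p - (m₀ : Qb) ^ p) < 1 := by
    have e : b ^ p - (m₀ : Qb) ^ p = (b ^ p - m₀) - ((m₀ : Qb) ^ p - m₀) := by ring
    rw [e, ← ValuationSubring.mem_nonunits_iff]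
    exact nonunits_sub_mem A hm₀ hferm
  have hyle : v (b - m₀) ≤ 1 := (A.valuation_le_one_iff _).mpr (sub_mem hbA hmA)
  -- step 2: `b ≡ m₀` modulo the maximal ideal
  have hy1 : v (b - m₀) < 1 := by
    refine lt_of_le_of_ne hyle fun heq => ?_
    have h2 := valuation_pow_sub_pow_eq A hζ hmA (x := b) (by rw [← hv, heq]; exact hlam1)
    rw [← hv, heq, one_pow] at h2
    exact h1.ne h2
  -- step 3: `b ≡ m₀` modulo `ζ - 1`
  have hy2 : v (b - m₀) ≤ v (ζ - 1) := by
    by_contra hcon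
    rw [not_le] at hcon
    set y := b - (m₀ : Qb) with hy
    have hy0 : y ≠ 0 := by
      rintro h0
      rw [h0, map_zero] at hcon
      exact not_lt_zero hcon
    have hc₀K : b ^ p - (m₀ : Qb) ^ p ∈ K :=
      K.sub_mem hbp (pow_mem (intCast_mem K m₀) p)
    have hpow : v y ^ p = v (b ^ p - (m₀ : Qb) ^ p) :=
      (valuation_pow_sub_pow_eq A hζ hmA hcon).symm
    have hc₀0 : b ^ p - (m₀ : Qb) ^ p ≠ 0 := by
      rw [← Valuation.ne_zero_iff v, ← hpow]
      exact pow_ne_zero _ ((Valuation.ne_zero_iff v).mpr hy0)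
    have hnot : ∀ c ∈ K, c ≠ 0 → v y ≠ v c := by
      intro c hc hc0 heq
      obtain ⟨e, he⟩ := exists_valuation_eq_zpow hA' hζ hc hc0
      rw [← hv] at he
      rw [he] at heq
      rcases le_or_gt e 0 with h0 | h0
      · have : (1 : A.ValueGroup) ≤ v (ζ - 1) ^ e := by
          have := (zpow_right_strictAnti₀ (zero_lt_iff.mpr hlam0) hlam1).antitone h0
          simpa using this
        rw [← heq] at this
        exact absurd hy1 (not_lt.mpr this)
      · have : v (ζ - 1) ^ e ≤ v (ζ - 1) := by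
          have := (zpow_right_strictAnti₀ (zero_lt_iff.mpr hlam0) hlam1).antitone
            (show (1 : ℤ) ≤ e by omega)
          simpa using this
        rw [← heq] at this
        exact absurd hcon (not_lt.mpr this)
    have hram : IsRamGen K v y p := isRamGen_of_pow hp hy0 hc₀K hc₀0 hpow hnot
    -- a monic polynomial of degree `p` over `K` with root `y`
    let P : K[X] := (X + C ((m₀ : ℤ) : K)) ^ p - C ⟨b ^ p, hbp⟩
    have hPdeg : P.natDegree = p := by
      simp only [P]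
      rw [natDegree_sub_C, natDegree_pow, natDegree_X_add_C, mul_one]
    have hPm : P.Monic := by
      simp only [P]
      refine ((monic_X_add_C _).pow p).sub_of_left (lt_of_le_of_lt degree_C_le ?_)
      rw [← natDegree_pos_iff_degree_pos, natDegree_pow, natDegree_X_add_C, mul_one]
      exact hp.pos
    have hroot : aeval y P = 0 := by
      simp only [P, map_sub, map_pow, map_add, aeval_X, aeval_C]
      have : (algebraMap K Qb) ((m₀ : ℤ) : K) = (m₀ : Qb) := by simp
      rw [this, hy, sub_add_cancel]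
      exact sub_self _
    have hram' : IsRamGen K v y P.natDegree := hPdeg ▸ hram
    have hyK : y ∉ K := fun h => hnot y h hy0 rfl
    have hbK : b ∉ K := fun h => hyK (K.sub_mem h (intCast_mem K m₀))
    obtain ⟨τ, hτζ, hτb⟩ : ∃ τ : G, τ ζ = ζ ∧ τ b ≠ b := by
      by_contra h
      apply hbK
      rw [hK, mem_adjoin_iff_fixed]
      intro σ hσ
      by_contra hne
      exact h ⟨σ, hσ, hne⟩
    have hτK : ∀ c ∈ K, τ c = c := fun c hc => (mem_adjoin_iff_fixed c).mp hc τ hτζ
    have hτinvζ : τ⁻¹ ζ = ζ := by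
      conv_lhs => rw [← hτζ]
      exact τ.symm_apply_apply ζ
    have hτinvK : ∀ c ∈ K, τ⁻¹ c = c := fun c hc => (mem_adjoin_iff_fixed c).mp hc τ⁻¹ hτinvζ
    obtain ⟨k, hk⟩ := exists_apply_eq_pow_mul hζ hb0 hbp hτζ
    obtain ⟨k', hk'⟩ := exists_apply_eq_pow_mul hζ hb0 hbp hτinvζ
    have hvτ : v (τ⁻¹ y) = v y := by
      have e : τ⁻¹ y = y + (ζ ^ k' - 1) * b := by
        rw [hy, map_sub, map_intCast, hk']
        ring
      rw [e]
      refine Valuation.map_add_eq_of_lt_left _ (lt_of_le_of_lt ?_ hcon)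
      rw [map_mul, hb1, mul_one]
      exact valuation_pow_sub_one_le A
        (mem_of_isIntegral A (isIntegral_of_pow_eq_one hp.ne_zero hζ.pow_eq_one)) k'
    set F := adjoinOver K y with hF
    have hyF : y ∈ F := mem_adjoinOver_self K y
    have hKF : K ≤ F := le_adjoinOver K y
    have hbF : b ∈ F := by
      have : b = y + (m₀ : Qb) := by rw [hy]; ring
      rw [this]
      exact F.add_mem hyF (intCast_mem F m₀)
    have hA'F : ∀ x ∈ F, x ∈ A ↔ x ∈ τ • A := by
      intro x hx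
      rw [ValuationSubring.mem_pointwise_smul_iff_inv_smul_mem]
      have h1 : v (τ⁻¹ x) = v x := hram'.map_apply_eq hy0 hPm hroot hτinvK hvτ hx
      rw [← A.valuation_le_one_iff, ← A.valuation_le_one_iff]
      show v x ≤ 1 ↔ v (τ⁻¹ x) ≤ 1
      rw [h1]
    have hAτ : (p : Qb) ∈ (τ • A).nonunits := by
      have hA'' := hA'
      rw [ValuationSubring.mem_nonunits_iff_or] at hA'' ⊢
      rcases hA'' with h | h
      · exact Or.inl h
      · right
        rw [ValuationSubring.mem_pointwise_smul_iff_inv_smul_mem]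
        have : τ⁻¹ • ((p : Qb))⁻¹ = ((p : Qb))⁻¹ := by
          show τ⁻¹ ((p : Qb))⁻¹ = _
          rw [map_inv₀, map_natCast]
        rwa [this]
    obtain ⟨ρ, hρ, hρA⟩ := exists_smul_eq_of_inter_eq hp hA' hAτ hA'F
    have hρF : ∀ x ∈ F, ρ x = x := fun x hx =>
      (IntermediateField.mem_fixingSubgroup_iff F ρ).mp hρ x hx
    have hσ'A : (ρ * τ) • A = A := by rw [mul_smul, hρA]
    have hτbF : τ b ∈ F := by
      rw [hk]
      exact F.mul_mem (hKF (mem_adjoin_zeta_pow k)) hbF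
    have hσ'b : (ρ * τ) b = τ b := by
      rw [AlgEquiv.mul_apply, hρF _ hτbF]
    have hσ'ζ : (ρ * τ) ζ = ζ := by
      rw [AlgEquiv.mul_apply, hτζ, hρF ζ (hKF (mem_adjoin_simple_self ℚ ζ))]
    have := hD (ρ * τ) (MulAction.mem_stabilizer_iff.mpr hσ'A) hσ'ζ
    rw [hσ'b] at this
    exact hτb this
  -- step 4
  refine ⟨m₀ ^ p, ?_⟩
  push_cast
  calc v (b ^ p - (m₀ : Qb) ^ p) ≤ v (ζ - 1) ^ p := valuation_pow_sub_pow_le A hζ hmA hy2
    _ ≤ v (ζ - 1) ^ 3 := pow_le_pow_of_le_one zero_le hlam1.le hp3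
    _ = v ((ζ - 1) ^ 3) := (map_pow _ _ _).symm

end Fermat.Agent.S14.H714
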